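import Fermat.Agent.FunctionFieldMilnor.Places

/-!
# Milnor's theorem on `K₂` of `k(t)`

The symbols filtered by degree: the step at degree `d` is generated by the `{u, P}`, and `{u, P}`
depends only on the residue of `u`. So the tame symbols and the specialisation at infinity are an
isomorphism.
-/

set_option autoImplicit false

noncomputable section

open Polynomial
open scoped DirectSum Classical

namespace Fermat.Agent.FunctionFieldMilnor

open Fermat.Agent.K2Rat (SteinbergSymbol K2 univSymbol lift lift_univSymbol hom_ext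
  closure_range_univSymbol)

universe u

variable {k : Type u} [Field k]

local notation "sy" => univSymbol (RatFunc k)

/-- The subgroup of the symbols of units of degree below `d`. -/
def filtration (d : ℕ) : AddSubgroup (K2 (RatFunc k)) :=
  AddSubgroup.closure {z | ∃ a ∈ smooth d, ∃ b ∈ smooth d, z = sy a b}

theorem sy_mem {d : ℕ} {a b : (RatFunc k)ˣ} (ha : a ∈ smooth d) (hb : b ∈ smooth d) :
    sy a b ∈ filtration d := AddSubgroup.subset_closure ⟨a, ha, b, hb, rfl⟩

theorem filtration_mono {m n : ℕ} (h : m ≤ n) : filtration (k := k) m ≤ filtration n :=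
  AddSubgroup.closure_mono fun _ ⟨a, ha, b, hb, e⟩ =>
    ⟨a, smooth_mono h ha, b, smooth_mono h hb, e⟩

theorem exists_mem_filtration (w : K2 (RatFunc k)) : ∃ d, w ∈ filtration d := by
  have h : w ∈ AddSubgroup.closure
      (Set.range fun x : (RatFunc k)ˣ × (RatFunc k)ˣ => sy x.1 x.2) := by
    rw [closure_range_univSymbol]
    trivial
  induction h using AddSubgroup.closure_induction with
  | mem z hz =>
    obtain ⟨⟨a, b⟩, rfl⟩ := hz
    obtain ⟨m, hm⟩ := exists_mem_smooth a
    obtain ⟨n, hn⟩ := exists_mem_smooth b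
    exact ⟨max m n, sy_mem (smooth_mono (le_max_left m n) hm) (smooth_mono (le_max_right m n) hn)⟩
  | zero => exact ⟨0, zero_mem _⟩
  | add x y _ _ hx hy =>
    obtain ⟨m, hm⟩ := hx
    obtain ⟨n, hn⟩ := hy
    exact ⟨max m n, add_mem (filtration_mono (le_max_left m n) hm)
      (filtration_mono (le_max_right m n) hn)⟩
  | neg x _ hx =>
    obtain ⟨m, hm⟩ := hx
    exact ⟨m, neg_mem hm⟩

theorem lift_tame_eq_zero {d : ℕ} {P : Place k} (hP : d ≤ P.1.natDegree) {w : K2 (RatFunc k)}
    (hw : w ∈ filtration d) : lift (placeData P).tame w = 0 := by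
  induction hw using AddSubgroup.closure_induction with
  | mem z hz =>
    obtain ⟨a, ha, b, hb, rfl⟩ := hz
    rw [lift_univSymbol, PlaceData.tame_eq_zero _ (v_eq_zero_of_mem hP ha)
      (v_eq_zero_of_mem hP hb)]
  | zero => exact map_zero _
  | add x y _ _ hx hy => rw [map_add, hx, hy, add_zero]
  | neg x _ hx => rw [map_neg, hx, neg_zero]

section Step

variable {d : ℕ} {P : Place k} (hP : P.1.natDegree = d)

include hP

/-- The Steinberg relation behind multiplicativity. -/
theorem sy_repUnit_mul {f g : k[X]} (hf : f ≠ 0) (hg : g ≠ 0) (hfd : f.natDegree < d)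
    (hgd : g.natDegree < d) :
    sy (repUnit ((placeData P).r (pu f hf) * (placeData P).r (pu g hg)) / (pu f hf * pu g hg))
      P.unit ∈ filtration d := by
  have hnf := not_dvd_of_natDegree_lt hf (hP ▸ hfd)
  have hng := not_dvd_of_natDegree_lt hg (hP ▸ hgd)
  have hr : rep ((((placeData P).r (pu f hf) * (placeData P).r (pu g hg) : (Res P)ˣ)) : Res P) =
      (f * g) %ₘ P.1 := by
    rw [Units.val_mul, (placeData_pu hf hnf).2, (placeData_pu hg hng).2, ← map_mul, rep_mk]
  set h := repUnit ((placeData P).r (pu f hf) * (placeData P).r (pu g hg))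
  have hh : (h : RatFunc k) = alg ((f * g) %ₘ P.1) := by
    rw [← hr]
    rfl
  have he : (h : RatFunc k) + alg P.1 * alg ((f * g) /ₘ P.1) = alg f * alg g := by
    rw [hh, ← map_mul, ← map_add, modByMonic_add_div, map_mul]
  by_cases hq : (f * g) /ₘ P.1 = 0
  · rw [hq, map_zero, mul_zero, add_zero] at he
    rw [show h = pu f hf * pu g hg from Units.ext (by rw [he]; rfl), div_self',
      (univSymbol _).one_left]
    exact zero_mem _
  set u := h / (pu f hf * pu g hg)
  set v := pu _ hq / (pu f hf * pu g hg)
  have hsm : pu f hf * pu g hg ∈ smooth d :=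
    mul_mem (pu_mem_of_lt hf hfd) (pu_mem_of_lt hg hgd)
  have hu : u ∈ smooth d := div_mem (repUnit_mem hP _) hsm
  have hv : v ∈ smooth d := div_mem (pu_mem_of_lt hq (by
    rw [natDegree_divByMonic _ P.monic, natDegree_mul hf hg]
    omega)) hsm
  have hst := (univSymbol (RatFunc k)).steinberg u (P.unit * v) (by
    simp only [u, v, Place.unit, Units.val_mul, Units.val_div_eq_div_val, coe_pu]
    rw [← mul_div_assoc, ← add_div, he, div_self (mul_ne_zero (alg_ne_zero hf) (alg_ne_zero hg))])
  rw [(univSymbol _).mul_right] at hst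
  rw [eq_neg_of_add_eq_zero_left hst]
  exact neg_mem (sy_mem hu hv)

/-- Modulo the lower symbols `{f, P}` only depends on the residue of `f`. -/
theorem sy_sub_mem : ∀ (f : k[X]) (hf : f ≠ 0), (∀ Q : Place k, Q.1 ∣ f → Q.1.natDegree < d) →
    sy (pu f hf) P.unit - sy (repUnit ((placeData P).r (pu f hf))) P.unit ∈ filtration d := by
  intro f
  induction f using UniqueFactorizationMonoid.induction_on_prime with
  | h₁ => exact fun hf => absurd rfl hf
  | h₂ x hx =>
    intro hf _
    have hx0 : x.natDegree < P.1.natDegree := by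
      rw [natDegree_eq_zero_of_isUnit hx]; exact P.natDegree_pos
    rw [show repUnit ((placeData P).r (pu x hf)) = pu x hf from pu_congr (by
      rw [(placeData_pu hf (not_dvd_of_natDegree_lt hf hx0)).2, rep_mk_of_lt hx0]), sub_self]
    exact zero_mem _
  | h₃ a p ha hp ih =>
    intro hf hd
    let Q : Place k := ⟨normalize p, monic_normalize hp.ne_zero,
      (normalize_associated p).symm.irreducible hp.irreducible⟩
    have hQd : Q.1.natDegree < d := hd Q (dvd_mul_of_dvd_left ((normalize_associated p).dvd) a)
    have hpd : p.natDegree < d := lt_of_le_of_lt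
      (natDegree_le_of_dvd ((normalize_associated p).symm.dvd) Q.ne_zero) hQd
    have hpP : p.natDegree < P.1.natDegree := hP ▸ hpd
    set x := (placeData P).r (pu p hp.ne_zero)
    set y := (placeData P).r (pu a ha)
    have hxp : repUnit x = pu p hp.ne_zero := pu_congr (by
      rw [(placeData_pu hp.ne_zero (not_dvd_of_natDegree_lt hp.ne_zero hpP)).2, rep_mk_of_lt hpP])
    have h1 := ih ha fun R hR => hd R (hR.mul_left p)
    have h2 := sy_repUnit_mul hP hp.ne_zero (rep_ne_zero y.ne_zero) hpd (hP ▸ rep_natDegree _)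
    rw [show (placeData P).r (pu (rep (y : Res P)) (rep_ne_zero y.ne_zero)) = y from
      (placeData_repUnit y).2, div_eq_mul_inv, mul_inv, (univSymbol _).mul_left,
      (univSymbol _).mul_left, (univSymbol _).inv_left, (univSymbol _).inv_left] at h2
    rw [pu_mul hp.ne_zero ha, map_mul, (univSymbol _).mul_left]
    convert sub_mem h1 h2 using 1
    simp only [repUnit]
    abel

/-- **Only the residue matters.** -/
theorem sy_mem_of_res {u : (RatFunc k)ˣ} (hu : u ∈ smooth d) (h : (placeData P).r u = 1) :
    sy u P.unit ∈ filtration d := by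
  obtain ⟨f, g, hf, hg, rfl, hfd, hgd⟩ := exists_pu_div_of_mem hu
  have hr : (placeData P).r (pu f hf) = (placeData P).r (pu g hg) := by
    rwa [_root_.map_div, div_eq_one] at h
  have h1 := sy_sub_mem hP f hf hfd
  have h2 := sy_sub_mem hP g hg hgd
  rw [hr] at h1
  rw [div_eq_mul_inv, (univSymbol _).mul_left, (univSymbol _).inv_left]
  convert sub_mem h1 h2 using 1
  abel

end Step

/-- The symbols `{u, P}` at degree `d`. -/
def phi (d : ℕ) :
    (⨁ _P : {P : Place k // P.1.natDegree = d}, Additive (smooth (k := k) d)) →+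
      K2 (RatFunc k) :=
  DirectSum.toAddMonoid fun P =>
    AddMonoidHom.mk' (fun u => sy (u.toMul : (RatFunc k)ˣ) P.1.unit)
      fun _ _ => (univSymbol (RatFunc k)).mul_left _ _ _

theorem phi_of {d : ℕ} (P : {P : Place k // P.1.natDegree = d}) (u : smooth (k := k) d) :
    phi d (DirectSum.of (fun _ => Additive (smooth (k := k) d)) P (Additive.ofMul u)) =
      sy (u : (RatFunc k)ˣ) P.1.unit := by
  rw [phi, DirectSum.toAddMonoid_of]
  rfl

theorem sy_mem_range {d : ℕ} {P : Place k} (hP : P.1.natDegree = d) {u : (RatFunc k)ˣ}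
    (hu : u ∈ smooth d) : sy u P.unit ∈ filtration d ⊔ (phi d).range :=
  AddSubgroup.mem_sup_right ⟨_, phi_of ⟨P, hP⟩ ⟨u, hu⟩⟩

theorem sy_unit_left {d : ℕ} {P : Place k} (hP : P.1.natDegree = d) {u : (RatFunc k)ˣ}
    (hu : u ∈ smooth d) : sy P.unit u ∈ filtration d ⊔ (phi d).range := by
  rw [eq_neg_of_add_eq_zero_left ((univSymbol (RatFunc k)).skew P.unit u)]
  exact neg_mem (sy_mem_range hP hu)

theorem sy_unit_unit {d : ℕ} {P Q : Place k} (hP : P.1.natDegree = d) (hQ : Q.1.natDegree = d) :
    sy P.unit Q.unit ∈ filtration d ⊔ (phi d).range := by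
  rcases eq_or_ne P Q with rfl | hne
  · rw [(univSymbol _).self_eq]
    exact sy_unit_left hP (neg_one_mem d)
  have hr0 : Q.1 - P.1 ≠ 0 := sub_ne_zero.2 fun e => hne (Subtype.ext e.symm)
  have hrd : (Q.1 - P.1).natDegree < d :=
    (natDegree_lt_natDegree hr0 (degree_sub_lt_left (degree_eq_of_natDegree_eq_of_ne hQ hP)
      Q.ne_zero (Q.monic.leadingCoeff.trans P.monic.leadingCoeff.symm))).trans_eq hQ
  set R := pu _ hr0
  have hst := (univSymbol (RatFunc k)).steinberg (P.unit / Q.unit) (R / Q.unit) (by
    simp only [Units.val_div_eq_div_val, Place.unit, R, coe_pu]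
    rw [← add_div, ← map_add, add_sub_cancel, div_self (alg_ne_zero Q.ne_zero)])
  simp only [div_eq_mul_inv, (univSymbol _).mul_left, (univSymbol _).mul_right,
    (univSymbol _).inv_left, (univSymbol _).inv_right, (univSymbol _).self_eq Q.unit] at hst
  have h1 := sy_unit_left hP (pu_mem_of_lt hr0 hrd)
  have h2 := sy_unit_left hQ (pu_mem_of_lt hr0 hrd)
  have h3 := sy_unit_left hQ (neg_one_mem (k := k) d)
  convert add_mem (sub_mem h1 h2) h3 using 1
  rw [← sub_eq_zero, ← neg_eq_zero, ← hst]
  abel
where
  degree_eq_of_natDegree_eq_of_ne {P Q : Place k} {d : ℕ} (hQ : Q.1.natDegree = d)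
      (hP : P.1.natDegree = d) : Q.1.degree = P.1.degree := by
    rw [degree_eq_natDegree Q.ne_zero, degree_eq_natDegree P.ne_zero, hP, hQ]

theorem filtration_succ_le (d : ℕ) :
    filtration (k := k) (d + 1) ≤ filtration d ⊔ (phi d).range := by
  set M := filtration (k := k) d ⊔ (phi d).range
  have hgen : ∀ x ∈ Set.range (cu (k := k)) ∪ Place.unit '' {P | P.1.natDegree < d + 1},
      x ∈ smooth d ∨ ∃ P : Place k, P.1.natDegree = d ∧ x = P.unit := by
    rintro x (⟨c, rfl⟩ | ⟨P, hP, rfl⟩)
    · exact Or.inl (cu_mem d c)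
    · rcases lt_or_eq_of_le (Nat.le_of_lt_succ hP) with h | h
      · exact Or.inl (unit_mem h)
      · exact Or.inr ⟨P, h, rfl⟩
  refine (AddSubgroup.closure_le _).2 ?_
  rintro z ⟨a, ha, b, hb, rfl⟩
  show sy a b ∈ M
  induction ha using Subgroup.closure_induction with
  | mem x hx =>
    induction hb using Subgroup.closure_induction with
    | mem y hy =>
      rcases hgen x hx with hx | ⟨P, hP, rfl⟩ <;> rcases hgen y hy with hy | ⟨Q, hQ, rfl⟩
      exacts [AddSubgroup.mem_sup_left (sy_mem hx hy), sy_mem_range hQ hx, sy_unit_left hP hy,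
        sy_unit_unit hP hQ]
    | one => rw [(univSymbol _).one_right]; exact zero_mem M
    | mul y y' _ _ h h' => rw [(univSymbol _).mul_right]; exact add_mem h h'
    | inv y _ h => rw [(univSymbol _).inv_right]; exact neg_mem h
  | one => rw [(univSymbol _).one_left]; exact zero_mem M
  | mul x x' _ _ h h' => rw [(univSymbol _).mul_left]; exact add_mem h h'
  | inv x _ h => rw [(univSymbol _).inv_left]; exact neg_mem h

theorem tame_phi {d : ℕ} (Q : {P : Place k // P.1.natDegree = d})
    (x : ⨁ _P : {P : Place k // P.1.natDegree = d}, Additive (smooth (k := k) d)) :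
    lift (placeData Q.1).tame (phi d x) =
      Additive.ofMul ((placeData Q.1).r ((x Q).toMul : (RatFunc k)ˣ)) := by
  induction x using DirectSum.induction_on with
  | zero => simp
  | of P u =>
    obtain ⟨u, rfl⟩ := Additive.ofMul.surjective u
    rw [phi_of, lift_univSymbol, PlaceData.tame_of_v_zero _ (v_eq_zero_of_mem Q.2.ge u.2)]
    rcases eq_or_ne P Q with rfl | hne
    · rw [placeData_self.1, zpow_one, DirectSum.of_eq_same]
      rfl
    · rw [placeData_unit_ne fun e => hne (Subtype.ext e.symm), zpow_zero,
        DirectSum.of_eq_of_ne _ _ _ hne.symm]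
      simp
  | add x y hx hy =>
    rw [map_add, map_add, hx, hy, DirectSum.add_apply, toMul_add, Subgroup.coe_mul, map_mul]
    rfl

/-- **Descent by one degree.** -/
theorem mem_filtration_of_tame {d : ℕ} {w : K2 (RatFunc k)} (hw : w ∈ filtration (d + 1))
    (h : ∀ P : Place k, lift (placeData P).tame w = 0) : w ∈ filtration d := by
  obtain ⟨l, hl, z, ⟨x, rfl⟩, rfl⟩ := AddSubgroup.mem_sup.1 (filtration_succ_le d hw)
  refine add_mem hl ?_
  rw [← DirectSum.sum_support_of x, map_sum]
  refine sum_mem fun Q _ => ?_
  obtain ⟨u, hu⟩ := Additive.ofMul.surjective (x Q)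
  rw [← hu, phi_of]
  refine sy_mem_of_res Q.2 u.2 ?_
  have h1 := h Q.1
  rw [map_add, lift_tame_eq_zero Q.2.ge hl, zero_add, tame_phi, ← hu, ofMul_eq_zero] at h1
  exact h1

/-! ### All symbols together -/

/-- The map on constants. -/
def k2Const : K2 k →+ K2 (RatFunc k) :=
  lift
    { toFun := fun a b => sy (cu a) (cu b)
      mul_left := fun a b c => by rw [map_mul, (univSymbol _).mul_left]
      mul_right := fun a b c => by rw [map_mul, (univSymbol _).mul_right]
      steinberg := fun a b h => (univSymbol _).steinberg _ _ (by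
        rw [coe_cu, coe_cu, ← map_add, h, map_one]) }

theorem k2Const_univSymbol (a b : kˣ) : k2Const (univSymbol k a b) = sy (cu a) (cu b) :=
  lift_univSymbol _ a b

theorem special_k2Const (z : K2 k) : lift (infData k).special (k2Const z) = z :=
  DFunLike.congr_fun (hom_ext (f := (lift (infData k).special).comp k2Const)
    (g := AddMonoidHom.id (K2 k)) fun a b => by
      rw [AddMonoidHom.comp_apply, k2Const_univSymbol, lift_univSymbol]
      show univSymbol k _ _ = _
      rw [(infData_cu a).2, (infData_cu b).2]
      rfl) z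

theorem tame_k2Const (P : Place k) (z : K2 k) : lift (placeData P).tame (k2Const z) = 0 :=
  DFunLike.congr_fun (hom_ext (f := (lift (placeData P).tame).comp k2Const) (g := 0) fun a b => by
    rw [AddMonoidHom.comp_apply, k2Const_univSymbol, lift_univSymbol,
      PlaceData.tame_eq_zero _ (placeData_cu a).1 (placeData_cu b).1]
    rfl) z

theorem filtration_one_le : filtration (k := k) 1 ≤ (k2Const (k := k)).range := by
  have hs : smooth (k := k) 1 ≤ (cu (k := k)).range :=
    (Subgroup.closure_le _).2 (by
      rintro x (⟨c, rfl⟩ | ⟨P, hP, rfl⟩)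
      · exact ⟨c, rfl⟩
      · exact absurd P.natDegree_pos (by
          have : P.1.natDegree < 1 := hP
          omega))
  refine (AddSubgroup.closure_le _).2 ?_
  rintro z ⟨a, ha, b, hb, rfl⟩
  obtain ⟨a, rfl⟩ := hs ha
  obtain ⟨b, rfl⟩ := hs hb
  exact ⟨univSymbol k a b, k2Const_univSymbol a b⟩

/-- **The kernel of the tame symbols is `K₂ k`.** -/
theorem exists_k2Const {w : K2 (RatFunc k)} (h : ∀ P : Place k, lift (placeData P).tame w = 0) :
    ∃ z, k2Const z = w := by
  obtain ⟨d, hd⟩ := exists_mem_filtration w
  induction d with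
  | zero => exact filtration_one_le (filtration_mono (Nat.zero_le 1) hd)
  | succ d ih =>
    rcases Nat.eq_zero_or_pos d with rfl | hd0
    · exact filtration_one_le hd
    · exact ih (mem_filtration_of_tame hd h)

theorem finite_v_support (c : (RatFunc k)ˣ) :
    {P : Place k | (placeData P).v c ≠ 0}.Finite := by
  obtain ⟨f, g, hf, hg, -, rfl⟩ := exists_pu_div c
  refine Set.Finite.subset (Set.Finite.preimage (f := fun P : Place k => P.1)
    Subtype.val_injective.injOn
    (UniqueFactorizationMonoid.normalizedFactors (f * g)).toFinset.finite_toSet) fun P hP => ?_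
  simp only [Set.mem_preimage, Finset.mem_coe, Multiset.mem_toFinset]
  refine (UniqueFactorizationMonoid.mem_normalizedFactors_iff' (mul_ne_zero hf hg)).2
    ⟨P.irreducible, P.monic.normalize_eq_self, ?_⟩
  by_contra hd
  refine hP ?_
  rw [show pu f hf / pu g hg = pu f hf * (pu g hg)⁻¹ from div_eq_mul_inv _ _, (placeData P).v_mul,
    (placeData_pu hf fun e => hd (e.mul_right g)).1, zero_add, ← zpow_neg_one,
    (placeData P).v_zpow, (placeData_pu hg fun e => hd (e.mul_left f)).1, mul_zero]

theorem finite_tame_support (a b : (RatFunc k)ˣ) :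
    {P : Place k | (placeData P).tame a b ≠ 0}.Finite := by
  refine ((finite_v_support a).union (finite_v_support b)).subset fun P hP => ?_
  by_contra h
  simp only [Set.mem_union, Set.mem_ofPred_eq, not_or, not_not] at h
  exact hP (PlaceData.tame_eq_zero _ h.1 h.2)

/-- The groups of the tame symbols. -/
abbrev TameTarget (k : Type u) [Field k] : Type u := ⨁ P : Place k, Additive (Res P)ˣ

/-- All tame symbols of a pair. -/
def tameSum (a b : (RatFunc k)ˣ) : TameTarget k :=
  DirectSum.mk _ (finite_tame_support a b).toFinset fun P => (placeData P.1).tame a b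

theorem tameSum_apply (a b : (RatFunc k)ˣ) (P : Place k) :
    tameSum a b P = (placeData P).tame a b := by
  by_cases hP : P ∈ (finite_tame_support a b).toFinset
  · exact DirectSum.mk_apply_of_mem hP
  · rw [tameSum, DirectSum.mk_apply_of_notMem hP]
    exact (not_not.1 fun h => hP ((finite_tame_support a b).mem_toFinset.2 h)).symm

/-- The specialisation and all tame symbols. -/
def allSymbols : SteinbergSymbol (RatFunc k) (K2 k × TameTarget k) where
  toFun a b := ((infData k).special a b, tameSum a b)
  mul_left a b c := Prod.ext ((infData k).special.mul_left a b c) (DirectSum.ext fun P => by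
    simp only [Prod.snd_add, DirectSum.add_apply, tameSum_apply]
    exact (placeData P).tame.mul_left a b c)
  mul_right a b c := Prod.ext ((infData k).special.mul_right a b c) (DirectSum.ext fun P => by
    simp only [Prod.snd_add, DirectSum.add_apply, tameSum_apply]
    exact (placeData P).tame.mul_right a b c)
  steinberg a b h := Prod.ext ((infData k).special.steinberg a b h) (DirectSum.ext fun P => by
    simp only [tameSum_apply]
    exact (placeData P).tame.steinberg a b h)

theorem lift_allSymbols_fst (w : K2 (RatFunc k)) :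
    (lift (allSymbols (k := k)) w).1 = lift (infData k).special w :=
  DFunLike.congr_fun (hom_ext (f := (AddMonoidHom.fst _ _).comp (lift (allSymbols (k := k))))
    (g := lift (infData k).special) fun a b => by
      rw [AddMonoidHom.comp_apply, lift_univSymbol, lift_univSymbol]
      rfl) w

theorem lift_allSymbols_snd (P : Place k) (w : K2 (RatFunc k)) :
    (lift (allSymbols (k := k)) w).2 P = lift (placeData P).tame w :=
  DFunLike.congr_fun (hom_ext (f := (DFinsupp.evalAddMonoidHom P).comp
    ((AddMonoidHom.snd _ _).comp (lift (allSymbols (k := k)))))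
    (g := lift (placeData P).tame) fun a b => by
      show (lift allSymbols (sy a b)).2 P = _
      rw [lift_univSymbol, lift_univSymbol]
      exact tameSum_apply a b P) w

theorem allSymbols_injective : Function.Injective (lift (allSymbols (k := k))) := by
  refine (injective_iff_map_eq_zero _).2 fun w hw => ?_
  obtain ⟨z, rfl⟩ := exists_k2Const (w := w) fun P => by
    rw [← lift_allSymbols_snd, hw]
    rfl
  have := lift_allSymbols_fst (k2Const z)
  rw [hw, special_k2Const] at this
  rw [← this]
  exact map_zero _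

theorem allSymbols_surjective : Function.Surjective (lift (allSymbols (k := k))) := by
  set R := (lift (allSymbols (k := k))).range
  have hfst : ∀ z, ((z, 0) : K2 k × TameTarget k) ∈ R := fun z => ⟨k2Const z, Prod.ext
    ((lift_allSymbols_fst _).trans (special_k2Const z))
    (DirectSum.ext fun P => (lift_allSymbols_snd P _).trans (tame_k2Const P z))⟩
  have hof : ∀ (d : ℕ) (P : Place k), P.1.natDegree = d → ∀ x : Additive (Res P)ˣ,
      ((0, DirectSum.of (fun Q : Place k => Additive (Res Q)ˣ) P x) : K2 k × TameTarget k) ∈ R := by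
    intro d
    induction d using Nat.strong_induction_on with
    | _ d ih =>
      intro P hP x
      set w := sy (repUnit x.toMul) P.unit
      set e := (lift allSymbols w).2 - DirectSum.of (fun Q : Place k => Additive (Res Q)ˣ) P x
      have he : ((0, e) : K2 k × TameTarget k) ∈ R := by
        rw [← DirectSum.sum_support_of e,
          show ∀ (s : Finset (Place k)) (g : Place k → TameTarget k),
            ((0, ∑ Q ∈ s, g Q) : K2 k × TameTarget k) = ∑ Q ∈ s, ((0 : K2 k), g Q) from
            fun s g => (map_sum (AddMonoidHom.inr (K2 k) (TameTarget k)) g s :)]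
        refine sum_mem fun Q hQ => ih Q.1.natDegree ?_ Q rfl _
        by_contra hle
        refine DFinsupp.mem_support_iff.1 hQ ?_
        show (lift allSymbols w).2 Q - DirectSum.of (fun R : Place k => Additive (Res R)ˣ) P x Q = 0
        rw [lift_allSymbols_snd, lift_univSymbol, sub_eq_zero,
          PlaceData.tame_of_v_zero _ (v_eq_zero_of_mem (not_lt.1 hle) (repUnit_mem hP _))]
        rcases eq_or_ne Q P with rfl | hne
        · rw [placeData_self.1, zpow_one, (placeData_repUnit _).2, DirectSum.of_eq_same]
          rfl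
        · rw [placeData_unit_ne hne, zpow_zero, DirectSum.of_eq_of_ne _ _ _ hne]
          rfl
      have h1 := sub_mem (sub_mem (show lift allSymbols w ∈ R from ⟨w, rfl⟩)
        (hfst (lift allSymbols w).1)) he
      convert h1 using 1
      exact Prod.ext (by simp) (by simp [e])
  intro z
  show z ∈ R
  rw [show z = (z.1, 0) + ((0 : K2 k), z.2) from Prod.ext (by simp) (by simp)]
  refine add_mem (hfst _) ?_
  rw [← DirectSum.sum_support_of z.2,
    show ∀ (s : Finset (Place k)) (g : Place k → TameTarget k),
      ((0, ∑ Q ∈ s, g Q) : K2 k × TameTarget k) = ∑ Q ∈ s, ((0 : K2 k), g Q) from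
      fun s g => (map_sum (AddMonoidHom.inr (K2 k) (TameTarget k)) g s :)]
  exact sum_mem fun Q _ => hof _ Q rfl _

/-- **Milnor's theorem on `K₂` of `k(t)`.** -/
def k2RatFuncEquiv (k : Type u) [Field k] : K2 (RatFunc k) ≃+ K2 k × TameTarget k :=
  AddEquiv.ofBijective (lift allSymbols) ⟨allSymbols_injective, allSymbols_surjective⟩

theorem k2RatFuncEquiv_apply (a b : (RatFunc k)ˣ) :
    k2RatFuncEquiv k (sy a b) = ((infData k).special a b, tameSum a b) :=
  lift_univSymbol allSymbols a b

theorem k2_eq_zero_of_finite [Finite k] (z : K2 k) : z = 0 :=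
  DFunLike.congr_fun (hom_ext (f := AddMonoidHom.id (K2 k)) (g := 0) fun a b =>
    (univSymbol k).eq_zero_of_finite a b) z

/-- `K₂` of the rational functions over a finite field. -/
def k2RatFuncFiniteEquiv (k : Type u) [Field k] [Finite k] :
    K2 (RatFunc k) ≃+ TameTarget k :=
  AddEquiv.ofBijective ((AddMonoidHom.snd _ _).comp (k2RatFuncEquiv k).toAddMonoidHom)
    ⟨fun x y h => (k2RatFuncEquiv k).injective
      (Prod.ext ((k2_eq_zero_of_finite _).trans (k2_eq_zero_of_finite _).symm) h),
    fun t => ⟨(k2RatFuncEquiv k).symm (0, t), by simp⟩⟩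

end Fermat.Agent.FunctionFieldMilnor
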