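import Fermat.Agent.K2Rat.Symbol
import Fermat.Agent.WittRat.Group

/-!
# Valuations with residue maps

From a discrete valuation with a multiplicative residue map: the tame symbol, which no change of
uniformiser alters, the specialised symbol, and the two residues of the Witt group.
-/

set_option autoImplicit false

noncomputable section

namespace Fermat.Agent.FunctionFieldMilnor

open Fermat.Agent.K2Rat (SteinbergSymbol K2 univSymbol)
open Fermat.Agent.WittRat (WittMap W wittClass)

/-- A valuation and the residue of the part of valuation zero, for one uniformiser. -/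
structure PlaceData (F κ : Type*) [Field F] [Field κ] where
  /-- The valuation. -/
  v : Fˣ → ℤ
  v_mul : ∀ a b, v (a * b) = v a + v b
  /-- The residue of the unit part. -/
  r : Fˣ →* κˣ
  r_neg_one : r (-1) = -1
  dom : ∀ a b c : Fˣ, (a : F) + b = c → v a < v b → v c = v a ∧ r c = r a
  eq_res : ∀ a b c : Fˣ, (a : F) + b = c → v a = v b → v c = v a → (r a : κ) + r b = r c
  gt_res : ∀ a b c : Fˣ, (a : F) + b = c → v a = v b → v a < v c → (r a : κ) + r b = 0

namespace PlaceData

variable {F κ : Type*} [Field F] [Field κ] (D : PlaceData F κ)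

theorem v_one : D.v 1 = 0 := by
  have := D.v_mul 1 1
  rw [mul_one] at this
  omega

theorem v_neg_one : D.v (-1) = 0 := by
  have := D.v_mul (-1) (-1)
  rw [neg_one_mul, neg_neg, D.v_one] at this
  omega

theorem v_neg (a : Fˣ) : D.v (-a) = D.v a := by
  rw [← neg_one_mul a, D.v_mul, D.v_neg_one, zero_add]

theorem r_neg (a : Fˣ) : D.r (-a) = -D.r a := by
  rw [← neg_one_mul a, map_mul, D.r_neg_one, neg_one_mul]

/-- The valuation as a homomorphism. -/
def vHom : Additive Fˣ →+ ℤ := AddMonoidHom.mk' (fun a => D.v a.toMul) fun a b => D.v_mul _ _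

theorem v_zpow (a : Fˣ) (n : ℤ) : D.v (a ^ n) = n * D.v a :=
  (map_zsmul D.vHom n (Additive.ofMul a)).trans (smul_eq_mul _ _)

/-- The valuation of a sum is at least the smaller one. -/
theorem not_lt {a b c : Fˣ} (h : (a : F) + b = c) (hab : D.v a = D.v b) : ¬ D.v c < D.v a :=
  fun hlt => by
    have := (D.dom c (-a) b (by rw [Units.val_neg, ← h]; ring) (by rwa [D.v_neg])).1
    omega

/-- **The tame symbol.** -/
def tame : SteinbergSymbol F (Additive κˣ) where
  toFun a b := Additive.ofMul ((-1) ^ (D.v a * D.v b) * D.r a ^ D.v b / D.r b ^ D.v a)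
  mul_left a b c := by
    rw [← ofMul_mul]
    refine congrArg Additive.ofMul ?_
    rw [D.v_mul, map_mul, add_mul, zpow_add, mul_zpow, zpow_add, div_mul_div_comm]
    exact congrArg (· / _) (mul_mul_mul_comm _ _ _ _)
  mul_right a b c := by
    rw [← ofMul_mul]
    refine congrArg Additive.ofMul ?_
    rw [D.v_mul, map_mul, mul_add, zpow_add, mul_zpow, zpow_add, div_mul_div_comm]
    exact congrArg (· / _) (mul_mul_mul_comm _ _ _ _)
  steinberg a b h := by
    refine ofMul_eq_zero.2 (div_eq_one.2 ?_)
    rcases lt_trichotomy (D.v a) 0 with ha | ha | ha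
    · obtain ⟨h1, h2⟩ := D.dom (-a) 1 b (by rw [Units.val_neg, Units.val_one, ← h]; ring)
        (by rwa [D.v_neg, D.v_one])
      rw [D.v_neg] at h1
      rw [D.r_neg] at h2
      rw [h1, h2, ← neg_one_mul (D.r a), mul_zpow]
      refine congrArg (· * _) ?_
      obtain ⟨k, hk⟩ : Even (D.v a * D.v a - D.v a) := by
        rw [show D.v a * D.v a - D.v a = (D.v a - 1) * (D.v a - 1 + 1) by ring]
        exact Int.even_mul_succ_self _
      rw [show D.v a * D.v a = 2 * k + D.v a by omega, zpow_add, zpow_mul,
        show ((-1 : κˣ)) ^ (2 : ℤ) = 1 by simp, one_zpow, one_mul]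
    · rcases lt_trichotomy (D.v b) 0 with hb | hb | hb
      · have := (D.dom (-b) 1 a (by rw [Units.val_neg, Units.val_one, ← h]; ring)
          (by rwa [D.v_neg, D.v_one])).1
        rw [D.v_neg] at this
        omega
      · simp [ha, hb]
      · obtain ⟨-, h2⟩ := D.dom 1 (-b) a (by rw [Units.val_neg, Units.val_one, ← h]; ring)
          (by rwa [D.v_neg, D.v_one])
        rw [map_one] at h2
        simp [ha, h2]
    · obtain ⟨h1, h2⟩ := D.dom 1 (-a) b (by rw [Units.val_neg, Units.val_one, ← h]; ring)
        (by rwa [D.v_neg, D.v_one])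
      rw [D.v_one] at h1
      rw [map_one] at h2
      simp [h1, h2]

theorem tame_apply (a b : Fˣ) : D.tame a b =
    Additive.ofMul ((-1) ^ (D.v a * D.v b) * D.r a ^ D.v b / D.r b ^ D.v a) := rfl

theorem tame_of_v_zero {a : Fˣ} (ha : D.v a = 0) (b : Fˣ) :
    D.tame a b = Additive.ofMul (D.r a ^ D.v b) := by
  simp [tame_apply, ha]

theorem tame_eq_zero {a b : Fˣ} (ha : D.v a = 0) (hb : D.v b = 0) : D.tame a b = 0 := by
  simp [tame_apply, ha, hb]

/-- **The tame symbol is the residue of an element of valuation `0`**, so it is canonical. -/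
theorem tame_eq_residue (a b : Fˣ) :
    D.v ((-1) ^ (D.v a * D.v b) * a ^ D.v b / b ^ D.v a) = 0 ∧
      D.tame a b = Additive.ofMul (D.r ((-1) ^ (D.v a * D.v b) * a ^ D.v b / b ^ D.v a)) := by
  constructor
  · rw [div_eq_mul_inv, ← zpow_neg, D.v_mul, D.v_mul, D.v_zpow, D.v_zpow, D.v_zpow, D.v_neg_one]
    ring
  · rw [_root_.map_div, map_mul, map_zpow, map_zpow, map_zpow, D.r_neg_one]
    rfl

/-- **The tame symbol does not depend on the uniformiser**: changing it multiplies every residue
by `w ^ v`, which cancels. -/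
theorem tame_change (w : κˣ) (a b : Fˣ) : D.tame a b = Additive.ofMul
    ((-1) ^ (D.v a * D.v b) * (D.r a * w ^ D.v a) ^ D.v b / (D.r b * w ^ D.v b) ^ D.v a) := by
  rw [tame_apply, mul_zpow, mul_zpow, ← zpow_mul, ← zpow_mul, mul_comm (D.v b) (D.v a),
    ← mul_assoc, mul_div_mul_right_eq_div]

/-- The symbol of the residues. -/
def special : SteinbergSymbol F (K2 κ) where
  toFun a b := univSymbol κ (D.r a) (D.r b)
  mul_left a b c := by rw [map_mul, (univSymbol κ).mul_left]
  mul_right a b c := by rw [map_mul, (univSymbol κ).mul_right]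
  steinberg a b h := by
    rcases lt_trichotomy (D.v a) 0 with ha | ha | ha
    · obtain ⟨-, h2⟩ := D.dom (-a) 1 b (by rw [Units.val_neg, Units.val_one, ← h]; ring)
        (by rwa [D.v_neg, D.v_one])
      rw [h2, D.r_neg, (univSymbol κ).apply_neg]
    · rcases lt_trichotomy (D.v b) 0 with hb | hb | hb
      · have := (D.dom (-b) 1 a (by rw [Units.val_neg, Units.val_one, ← h]; ring)
          (by rwa [D.v_neg, D.v_one])).1
        rw [D.v_neg] at this
        omega
      · refine (univSymbol κ).steinberg _ _ ?_
        have := D.eq_res a b 1 (by rw [Units.val_one, h]) (ha.trans hb.symm)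
          (D.v_one.trans ha.symm)
        rwa [map_one, Units.val_one] at this
      · obtain ⟨-, h2⟩ := D.dom 1 (-b) a (by rw [Units.val_neg, Units.val_one, ← h]; ring)
          (by rwa [D.v_neg, D.v_one])
        rw [h2, map_one, (univSymbol κ).one_left]
    · obtain ⟨-, h2⟩ := D.dom 1 (-a) b (by rw [Units.val_neg, Units.val_one, ← h]; ring)
        (by rwa [D.v_neg, D.v_one])
      rw [h2, map_one, (univSymbol κ).one_right]

open scoped Classical in
/-- The residue of the classes of valuation of parity `ε`. -/
def residue (ε : ℤ) : WittMap F (W κ) where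
  toFun a := if Even (D.v a + ε) then wittClass κ (D.r a) else 0
  mul_sq a b := by
    rw [pow_two, D.v_mul, D.v_mul, map_mul, map_mul, ← pow_two, (wittClass κ).mul_sq,
      if_congr (show Even (D.v a + (D.v b + D.v b) + ε) ↔ Even (D.v a + ε) by
        simp only [Int.even_iff]; omega) rfl rfl]
  add_neg a := by
    rw [D.v_neg, D.r_neg]
    split_ifs
    · exact (wittClass κ).add_neg _
    · exact add_zero _
  binary a b c h := by
    rw [D.v_mul, D.v_mul, map_mul, map_mul]
    rcases lt_trichotomy (D.v a) (D.v b) with hab | hab | hab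
    · obtain ⟨h1, h2⟩ := D.dom a b c h hab
      rw [h1, h2, show D.r a * D.r b * D.r a = D.r b * D.r a ^ 2 by rw [pow_two]; ac_rfl,
        (wittClass κ).mul_sq, if_congr (show Even (D.v a + D.v b + D.v a + ε) ↔ Even (D.v b + ε) by
          simp only [Int.even_iff]; omega) rfl rfl]
    · have hc := le_of_not_gt (D.not_lt h hab)
      rcases eq_or_lt_of_le hc with hc | hc
      · have hr := D.eq_res a b c h hab hc.symm
        rw [← hab, ← hc, if_congr (show Even (D.v a + D.v a + D.v a + ε) ↔ Even (D.v a + ε) by
          simp only [Int.even_iff]; omega) rfl rfl]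
        split_ifs
        · exact (wittClass κ).binary _ _ _ hr
        · rfl
      · have hr : D.r b = -D.r a := Units.ext (by
          rw [Units.val_neg]
          exact eq_neg_of_add_eq_zero_right (D.gt_res a b c h hab hc))
        rw [← hab, hr, if_congr (show Even (D.v a + D.v a + D.v c + ε) ↔ Even (D.v c + ε) by
          simp only [Int.even_iff]; omega) rfl rfl,
          show D.r a * -D.r a * D.r c = -D.r c * D.r a ^ 2 by
            rw [mul_neg, neg_mul, neg_mul, pow_two]; ac_rfl, (wittClass κ).mul_sq]
        have e1 : ∀ (p : Prop) [Decidable p] (x : κˣ),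
            (if p then wittClass κ x else 0) + (if p then wittClass κ (-x) else 0) = 0 := by
          intro p _ x
          split_ifs
          · exact (wittClass κ).add_neg _
          · exact add_zero _
        rw [e1, e1]
    · obtain ⟨h1, h2⟩ := D.dom b a c (by rw [add_comm, h]) hab
      rw [h1, h2, show D.r a * D.r b * D.r b = D.r a * D.r b ^ 2 by rw [pow_two]; ac_rfl,
        (wittClass κ).mul_sq, if_congr (show Even (D.v a + D.v b + D.v b + ε) ↔ Even (D.v a + ε) by
          simp only [Int.even_iff]; omega) rfl rfl, add_comm]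

theorem residue_of_even {ε : ℤ} {a : Fˣ} (h : Even (D.v a + ε)) :
    D.residue ε a = wittClass κ (D.r a) := if_pos h

theorem residue_of_not_even {ε : ℤ} {a : Fˣ} (h : ¬ Even (D.v a + ε)) : D.residue ε a = 0 :=
  if_neg h

end PlaceData

end Fermat.Agent.FunctionFieldMilnor
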