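import Fermat.Agent.FunctionFieldMilnor.PlaceData

/-!
# The places of `k(t)`

The monic irreducible polynomials and the degree give valuations with residue maps; the units are
generated by the constants and the monic irreducibles, which filters them by degree.
-/

set_option autoImplicit false

noncomputable section

open Polynomial

namespace Fermat.Agent.FunctionFieldMilnor

universe u

variable (k : Type u) [Field k]

/-- A finite place: a monic irreducible polynomial. -/
def Place : Type u := {P : k[X] // P.Monic ∧ Irreducible P}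

variable {k}

theorem Place.monic (P : Place k) : P.1.Monic := P.2.1

theorem Place.irreducible (P : Place k) : Irreducible P.1 := P.2.2

theorem Place.ne_zero (P : Place k) : P.1 ≠ 0 := P.monic.ne_zero

theorem Place.natDegree_pos (P : Place k) : 0 < P.1.natDegree := P.irreducible.natDegree_pos

instance Place.fact (P : Place k) : Fact (Irreducible P.1) := ⟨P.irreducible⟩

/-- The residue field. -/
abbrev Res (P : Place k) : Type u := AdjoinRoot P.1

theorem Place.mk_eq_zero (P : Place k) {g : k[X]} : AdjoinRoot.mk P.1 g = 0 ↔ P.1 ∣ g :=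
  AdjoinRoot.mk_eq_zero

/-- A polynomial as an element of the field. -/
abbrev alg : k[X] →+* RatFunc k := algebraMap k[X] (RatFunc k)

theorem alg_injective : Function.Injective (alg (k := k)) :=
  IsFractionRing.injective k[X] (RatFunc k)

theorem alg_ne_zero {f : k[X]} (h : f ≠ 0) : alg f ≠ 0 :=
  (map_ne_zero_iff _ alg_injective).2 h

/-- A nonzero polynomial as a unit. -/
def pu (f : k[X]) (h : f ≠ 0) : (RatFunc k)ˣ := Units.mk0 (alg f) (alg_ne_zero h)

theorem coe_pu (f : k[X]) (h : f ≠ 0) : ((pu f h : (RatFunc k)ˣ) : RatFunc k) = alg f := rfl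

theorem pu_mul {f g : k[X]} (hf : f ≠ 0) (hg : g ≠ 0) :
    pu (f * g) (mul_ne_zero hf hg) = pu f hf * pu g hg := Units.ext (map_mul alg f g)

theorem pu_congr {f g : k[X]} (h : f = g) {hf : f ≠ 0} {hg : g ≠ 0} : pu f hf = pu g hg := by
  subst h
  rfl

theorem pu_one : pu (1 : k[X]) one_ne_zero = 1 := Units.ext (map_one alg)

/-- The constants. -/
def cu : kˣ →* (RatFunc k)ˣ := Units.map (RatFunc.C : k →+* RatFunc k).toMonoidHom

theorem coe_cu (c : kˣ) : ((cu c : (RatFunc k)ˣ) : RatFunc k) = RatFunc.C (c : k) := rfl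

theorem cu_eq_pu (c : kˣ) : cu c = pu (C (c : k)) (C_ne_zero.2 c.ne_zero) :=
  Units.ext (RatFunc.algebraMap_C (c : k)).symm

/-- A place as a unit. -/
def Place.unit (P : Place k) : (RatFunc k)ˣ := pu P.1 P.ne_zero

theorem exists_pu_div (a : (RatFunc k)ˣ) :
    ∃ (f g : k[X]) (hf : f ≠ 0) (hg : g ≠ 0), g.Monic ∧ a = pu f hf / pu g hg :=
  ⟨_, _, RatFunc.num_ne_zero a.ne_zero, RatFunc.denom_ne_zero _, RatFunc.monic_denom _,
    Units.ext (by
      rw [Units.val_div_eq_div_val, coe_pu, coe_pu]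
      exact (RatFunc.num_div_denom (a : RatFunc k)).symm)⟩

/-! ### The place of a monic irreducible -/

variable (P : Place k)

/-- `a = P ^ i f / g` with `g` prime to `P` and `f / g` of residue `x`. -/
def HasRes (a : RatFunc k) (i : ℤ) (x : Res P) : Prop :=
  ∃ f g : k[X], ¬ P.1 ∣ g ∧ a = alg P.1 ^ i * (alg f / alg g) ∧
    x = AdjoinRoot.mk P.1 f / AdjoinRoot.mk P.1 g

variable {P}

theorem HasRes.add {a b : RatFunc k} {i : ℤ} {x y : Res P} (ha : HasRes P a i x)
    (hb : HasRes P b i y) : HasRes P (a + b) i (x + y) := by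
  obtain ⟨f, g, hg, rfl, rfl⟩ := ha
  obtain ⟨f', g', hg', rfl, rfl⟩ := hb
  have h0 : ∀ {q : k[X]}, ¬ P.1 ∣ q → alg q ≠ 0 ∧ AdjoinRoot.mk P.1 q ≠ 0 := fun {q} hq =>
    ⟨alg_ne_zero fun e => hq (e ▸ dvd_zero _), fun e => hq (P.mk_eq_zero.1 e)⟩
  refine ⟨f * g' + g * f', g * g', P.irreducible.prime.not_dvd_mul hg hg', ?_, ?_⟩
  · rw [← mul_add, div_add_div _ _ (h0 hg).1 (h0 hg').1]
    simp only [map_add, map_mul]
  · rw [div_add_div _ _ (h0 hg).2 (h0 hg').2]
    simp only [map_add, map_mul]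

theorem HasRes.mul {a b : RatFunc k} {i j : ℤ} {x y : Res P} (ha : HasRes P a i x)
    (hb : HasRes P b j y) : HasRes P (a * b) (i + j) (x * y) := by
  obtain ⟨f, g, hg, rfl, rfl⟩ := ha
  obtain ⟨f', g', hg', rfl, rfl⟩ := hb
  refine ⟨f * f', g * g', P.irreducible.prime.not_dvd_mul hg hg', ?_, ?_⟩
  · rw [zpow_add₀ (alg_ne_zero P.ne_zero), map_mul, map_mul, mul_mul_mul_comm, div_mul_div_comm]
  · rw [map_mul, map_mul, div_mul_div_comm]

theorem HasRes.neg {a : RatFunc k} {i : ℤ} {x : Res P} (ha : HasRes P a i x) :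
    HasRes P (-a) i (-x) := by
  obtain ⟨f, g, hg, rfl, rfl⟩ := ha
  exact ⟨-f, g, hg, by rw [map_neg, neg_div, mul_neg], by rw [map_neg, neg_div]⟩

theorem HasRes.lower {a : RatFunc k} {i j : ℤ} {x : Res P} (ha : HasRes P a i x) (h : j < i) :
    HasRes P a j 0 := by
  obtain ⟨f, g, hg, rfl, rfl⟩ := ha
  obtain ⟨n, hn⟩ : ∃ n : ℕ, i = j + (n + 1 : ℕ) := ⟨(i - j - 1).toNat, by omega⟩
  refine ⟨P.1 ^ (n + 1) * f, g, hg, ?_, ?_⟩
  · rw [hn, zpow_add₀ (alg_ne_zero P.ne_zero), zpow_natCast, map_mul, map_pow, mul_div_assoc,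
      mul_assoc]
  · rw [map_mul, map_pow, AdjoinRoot.mk_self, zero_pow n.succ_ne_zero, zero_mul, zero_div]

theorem HasRes.unique {a : RatFunc k} {i : ℤ} {x y : Res P} (ha : HasRes P a i x)
    (hb : HasRes P a i y) : x = y := by
  obtain ⟨f, g, hg, rfl, rfl⟩ := ha
  obtain ⟨f', g', hg', he, rfl⟩ := hb
  have he' := mul_left_cancel₀ (zpow_ne_zero _ (alg_ne_zero P.ne_zero)) he
  rw [div_eq_div_iff (alg_ne_zero (f := g) fun e => hg (e ▸ dvd_zero _))
    (alg_ne_zero (f := g') fun e => hg' (e ▸ dvd_zero _)), ← map_mul, ← map_mul] at he'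
  rw [div_eq_div_iff (fun e => hg (P.mk_eq_zero.1 e)) (fun e => hg' (P.mk_eq_zero.1 e)),
    ← map_mul, ← map_mul, alg_injective he']

theorem HasRes.eq_of_ne_zero {a : RatFunc k} {i j : ℤ} {x y : Res P} (ha : HasRes P a i x)
    (hb : HasRes P a j y) (hx : x ≠ 0) (hy : y ≠ 0) : i = j ∧ x = y := by
  obtain h | h | h := lt_trichotomy i j
  · exact absurd (ha.unique (hb.lower h)) hx
  · subst h
    exact ⟨rfl, ha.unique hb⟩
  · exact absurd (hb.unique (ha.lower h)) hy

variable (P)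

theorem hasRes_of_not_dvd {f g : k[X]} (hg : ¬ P.1 ∣ g) :
    HasRes P (alg f / alg g) 0 (AdjoinRoot.mk P.1 f / AdjoinRoot.mk P.1 g) :=
  ⟨f, g, hg, by rw [zpow_zero, one_mul], rfl⟩

theorem exists_hasRes (a : (RatFunc k)ˣ) :
    ∃ (i : ℤ) (x : (Res P)ˣ), HasRes P (a : RatFunc k) i x := by
  obtain ⟨f, g, hf, hg, -, rfl⟩ := exists_pu_div a
  have hfin : ∀ q : k[X], q ≠ 0 → ∃ (n : ℕ) (r : k[X]), q = P.1 ^ n * r ∧ ¬ P.1 ∣ r :=
    fun q hq => ⟨_, (finiteMultiplicity_of_degree_pos_of_monic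
      (natDegree_pos_iff_degree_pos.1 P.natDegree_pos) P.monic hq).exists_eq_pow_mul_and_not_dvd⟩
  obtain ⟨m, f', rfl, hf'⟩ := hfin f hf
  obtain ⟨n, g', rfl, hg'⟩ := hfin g hg
  refine ⟨(m : ℤ) - n, Units.mk0 (AdjoinRoot.mk P.1 f' / AdjoinRoot.mk P.1 g')
    (div_ne_zero (fun e => hf' (P.mk_eq_zero.1 e)) fun e => hg' (P.mk_eq_zero.1 e)),
    f', g', hg', ?_, rfl⟩
  rw [Units.val_div_eq_div_val, coe_pu, coe_pu, map_mul, map_mul, map_pow, map_pow,
    zpow_sub₀ (alg_ne_zero P.ne_zero), zpow_natCast, zpow_natCast, div_mul_div_comm]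

/-- The valuation at `P`. -/
def vP (a : (RatFunc k)ˣ) : ℤ := (exists_hasRes P a).choose

/-- The residue at `P`. -/
def rP (a : (RatFunc k)ˣ) : (Res P)ˣ := (exists_hasRes P a).choose_spec.choose

theorem hasRes_self (a : (RatFunc k)ˣ) : HasRes P (a : RatFunc k) (vP P a) (rP P a) :=
  (exists_hasRes P a).choose_spec.choose_spec

theorem vP_rP_eq {a : (RatFunc k)ˣ} {i : ℤ} {x : (Res P)ˣ}
    (h : HasRes P (a : RatFunc k) i x) : vP P a = i ∧ rP P a = x :=
  ⟨((hasRes_self P a).eq_of_ne_zero h (Units.ne_zero _) x.ne_zero).1,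
    Units.ext ((hasRes_self P a).eq_of_ne_zero h (Units.ne_zero _) x.ne_zero).2⟩

theorem vP_rP_mul (a b : (RatFunc k)ˣ) :
    vP P (a * b) = vP P a + vP P b ∧ rP P (a * b) = rP P a * rP P b :=
  vP_rP_eq P (by
    rw [Units.val_mul, Units.val_mul]
    exact (hasRes_self P a).mul (hasRes_self P b))

theorem vP_rP_one : vP P 1 = 0 ∧ rP P 1 = 1 :=
  vP_rP_eq P (by simpa using hasRes_of_not_dvd P (f := 1) P.irreducible.not_dvd_one)

/-- **The data of a finite place**, with the uniformiser `P`. -/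
def placeData : PlaceData (RatFunc k) (Res P) where
  v := vP P
  v_mul a b := (vP_rP_mul P a b).1
  r :=
    { toFun := rP P
      map_one' := (vP_rP_one P).2
      map_mul' := fun a b => (vP_rP_mul P a b).2 }
  r_neg_one := by
    refine (vP_rP_eq P (i := 0) ?_).2
    simpa using (hasRes_of_not_dvd P (f := 1) P.irreducible.not_dvd_one).neg
  dom a b c h hlt := by
    refine vP_rP_eq P ?_
    rw [← h]
    simpa using (hasRes_self P a).add ((hasRes_self P b).lower hlt)
  eq_res a b c h hab hc := by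
    refine HasRes.unique (a := (c : RatFunc k)) (i := vP P a) ?_ (hc ▸ hasRes_self P c)
    rw [← h]
    exact (hasRes_self P a).add (hab ▸ hasRes_self P b)
  gt_res a b c h hab hc := by
    refine HasRes.unique (a := (c : RatFunc k)) (i := vP P a) ?_ ((hasRes_self P c).lower hc)
    rw [← h]
    exact (hasRes_self P a).add (hab ▸ hasRes_self P b)

variable {P}

theorem placeData_eq {a : (RatFunc k)ˣ} {i : ℤ} {x : (Res P)ˣ}
    (h : HasRes P (a : RatFunc k) i x) : (placeData P).v a = i ∧ (placeData P).r a = x :=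
  vP_rP_eq P h

/-- A polynomial prime to `P`. -/
theorem placeData_pu {f : k[X]} (hf : f ≠ 0) (hd : ¬ P.1 ∣ f) :
    (placeData P).v (pu f hf) = 0 ∧
      (((placeData P).r (pu f hf) : (Res P)ˣ) : Res P) = AdjoinRoot.mk P.1 f := by
  obtain ⟨h1, h2⟩ := placeData_eq (P := P) (a := pu f hf) (i := 0)
    (x := Units.mk0 (AdjoinRoot.mk P.1 f) fun e => hd (P.mk_eq_zero.1 e))
    (by simpa [coe_pu] using hasRes_of_not_dvd P (f := f) P.irreducible.not_dvd_one)
  exact ⟨h1, by rw [h2]; rfl⟩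

theorem placeData_self : (placeData P).v P.unit = 1 ∧ (placeData P).r P.unit = 1 :=
  placeData_eq ⟨1, 1, P.irreducible.not_dvd_one, by simp [Place.unit, coe_pu], by simp⟩

theorem placeData_cu (c : kˣ) : (placeData P).v (cu c) = 0 ∧
    (placeData P).r (cu c) = Units.map (AdjoinRoot.of P.1).toMonoidHom c :=
  placeData_eq ⟨C (c : k), 1, P.irreducible.not_dvd_one, by simp [coe_cu], by simp⟩

theorem Place.not_dvd_of_ne {P Q : Place k} (h : P ≠ Q) : ¬ P.1 ∣ Q.1 := fun hd =>
  h (Subtype.ext (eq_of_monic_of_associated P.monic Q.monic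
    (P.irreducible.associated_of_dvd Q.irreducible hd)))

theorem placeData_unit_ne {P Q : Place k} (h : P ≠ Q) : (placeData P).v Q.unit = 0 :=
  (placeData_pu Q.ne_zero (Place.not_dvd_of_ne h)).1

/-! ### The place at infinity -/

/-- Minus the degree. -/
def vInf (a : (RatFunc k)ˣ) : ℤ :=
  ((RatFunc.denom (a : RatFunc k)).natDegree : ℤ) - (RatFunc.num (a : RatFunc k)).natDegree

/-- The leading coefficient. -/
def rInf (a : (RatFunc k)ˣ) : kˣ :=
  Units.mk0 ((RatFunc.num (a : RatFunc k)).leadingCoeff)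
    (leadingCoeff_ne_zero.2 (RatFunc.num_ne_zero a.ne_zero))

theorem inf_eq {a : (RatFunc k)ˣ} {f g : k[X]} (hf : f ≠ 0) (hg : g ≠ 0)
    (h : (a : RatFunc k) = alg f / alg g) :
    vInf a = (g.natDegree : ℤ) - f.natDegree ∧ (rInf a : k) * g.leadingCoeff = f.leadingCoeff := by
  have he := (RatFunc.num_mul_eq_mul_denom_iff hg).2 h
  constructor
  · have h1 := congrArg natDegree he
    rw [natDegree_mul (RatFunc.num_ne_zero a.ne_zero) hg,
      natDegree_mul hf (RatFunc.denom_ne_zero _)] at h1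
    rw [vInf]
    omega
  · have h1 := congrArg leadingCoeff he
    rwa [leadingCoeff_mul, leadingCoeff_mul, (RatFunc.monic_denom _).leadingCoeff, mul_one] at h1

theorem exists_common (a b : (RatFunc k)ˣ) {c : (RatFunc k)ˣ}
    (h : (a : RatFunc k) + b = c) : ∃ p p' q : k[X], p ≠ 0 ∧ p' ≠ 0 ∧ q ≠ 0 ∧ p + p' ≠ 0 ∧
      (a : RatFunc k) = alg p / alg q ∧ (b : RatFunc k) = alg p' / alg q ∧
      (c : RatFunc k) = alg (p + p') / alg q := by
  obtain ⟨f, g, hf, hg, -, rfl⟩ := exists_pu_div a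
  obtain ⟨f', g', hf', hg', -, rfl⟩ := exists_pu_div b
  have ea : ((pu f hf / pu g hg : (RatFunc k)ˣ) : RatFunc k) = alg (f * g') / alg (g * g') := by
    rw [Units.val_div_eq_div_val, coe_pu, coe_pu, map_mul, map_mul,
      mul_div_mul_right _ _ (alg_ne_zero hg')]
  have eb : ((pu f' hf' / pu g' hg' : (RatFunc k)ˣ) : RatFunc k) =
      alg (g * f') / alg (g * g') := by
    rw [Units.val_div_eq_div_val, coe_pu, coe_pu, map_mul, map_mul,
      mul_div_mul_left _ _ (alg_ne_zero hg)]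
  have ec : (c : RatFunc k) = alg (f * g' + g * f') / alg (g * g') := by
    rw [← h, ea, eb, map_add, add_div]
  refine ⟨_, _, _, mul_ne_zero hf hg', mul_ne_zero hg hf', mul_ne_zero hg hg', fun e => ?_, ea,
    eb, ec⟩
  rw [e, map_zero, zero_div] at ec
  exact c.ne_zero ec

/-- **The data at infinity**, with the uniformiser `t⁻¹`. -/
def infData (k : Type u) [Field k] : PlaceData (RatFunc k) k where
  v := vInf
  v_mul a b := by
    obtain ⟨f, g, hf, hg, -, rfl⟩ := exists_pu_div a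
    obtain ⟨f', g', hf', hg', -, rfl⟩ := exists_pu_div b
    rw [(inf_eq (a := pu f hf / pu g hg) hf hg (Units.val_div_eq_div_val _ _)).1,
      (inf_eq (a := pu f' hf' / pu g' hg') hf' hg' (Units.val_div_eq_div_val _ _)).1,
      (inf_eq (a := pu f hf / pu g hg * (pu f' hf' / pu g' hg')) (mul_ne_zero hf hf')
        (mul_ne_zero hg hg') (by simp [coe_pu, div_mul_div_comm])).1,
      natDegree_mul hf hf', natDegree_mul hg hg']
    push_cast
    ring
  r :=
    { toFun := rInf
      map_one' := Units.ext (by simp [rInf])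
      map_mul' := fun a b => Units.ext (by
        obtain ⟨f, g, hf, hg, hgm, rfl⟩ := exists_pu_div a
        obtain ⟨f', g', hf', hg', hgm', rfl⟩ := exists_pu_div b
        have h1 :=
          (inf_eq (a := pu f hf / pu g hg) hf hg (Units.val_div_eq_div_val _ _)).2
        have h2 :=
          (inf_eq (a := pu f' hf' / pu g' hg') hf' hg' (Units.val_div_eq_div_val _ _)).2
        have h3 := (inf_eq (a := pu f hf / pu g hg * (pu f' hf' / pu g' hg'))
          (mul_ne_zero hf hf') (mul_ne_zero hg hg') (by simp [coe_pu, div_mul_div_comm])).2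
        rw [hgm.leadingCoeff, mul_one] at h1
        rw [hgm'.leadingCoeff, mul_one] at h2
        rw [(hgm.mul hgm').leadingCoeff, mul_one, leadingCoeff_mul] at h3
        rw [Units.val_mul, h3, h1, h2]) }
  r_neg_one := Units.ext (by
    have h := (inf_eq (a := (-1 : (RatFunc k)ˣ)) (f := -1) (g := 1) (neg_ne_zero.2 one_ne_zero)
      one_ne_zero (by simp)).2
    simpa using h)
  dom a b c h hlt := by
    obtain ⟨p, p', q, hp, hp', hq, hs, ha, hb, hc⟩ := exists_common a b h
    obtain ⟨va, ra⟩ := inf_eq hp hq ha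
    obtain ⟨vb, -⟩ := inf_eq hp' hq hb
    obtain ⟨vc, rc⟩ := inf_eq hs hq hc
    have hdeg : p'.natDegree < p.natDegree := by omega
    rw [natDegree_add_eq_left_of_natDegree_lt hdeg] at vc
    rw [leadingCoeff_add_of_degree_lt' (degree_lt_degree hdeg)] at rc
    exact ⟨vc.trans va.symm,
      Units.ext (mul_right_cancel₀ (leadingCoeff_ne_zero.2 hq) (rc.trans ra.symm))⟩
  eq_res a b c h hab hc' := by
    obtain ⟨p, p', q, hp, hp', hq, hs, ha, hb, hc⟩ := exists_common a b h
    obtain ⟨va, ra⟩ := inf_eq hp hq ha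
    obtain ⟨vb, rb⟩ := inf_eq hp' hq hb
    obtain ⟨vc, rc⟩ := inf_eq hs hq hc
    refine mul_right_cancel₀ (leadingCoeff_ne_zero.2 hq) ?_
    show ((rInf a : k) + rInf b) * _ = (rInf c : k) * _
    rw [add_mul, ra, rb, rc, leadingCoeff, leadingCoeff, leadingCoeff,
      show p'.natDegree = p.natDegree by omega, show (p + p').natDegree = p.natDegree by omega,
      coeff_add]
  gt_res a b c h hab hlt := by
    obtain ⟨p, p', q, hp, hp', hq, hs, ha, hb, hc⟩ := exists_common a b h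
    obtain ⟨va, ra⟩ := inf_eq hp hq ha
    obtain ⟨vb, rb⟩ := inf_eq hp' hq hb
    obtain ⟨vc, -⟩ := inf_eq hs hq hc
    refine mul_right_cancel₀ (leadingCoeff_ne_zero.2 hq) ?_
    show ((rInf a : k) + rInf b) * _ = 0 * _
    rw [zero_mul, add_mul, ra, rb, leadingCoeff, leadingCoeff,
      show p'.natDegree = p.natDegree by omega, ← coeff_add]
    exact coeff_eq_zero_of_natDegree_lt (by omega)

theorem infData_pu {f : k[X]} (hf : f ≠ 0) :
    (infData k).v (pu f hf) = -(f.natDegree : ℤ) ∧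
      (((infData k).r (pu f hf) : kˣ) : k) = f.leadingCoeff := by
  obtain ⟨h1, h2⟩ := inf_eq (a := pu f hf) hf one_ne_zero (by simp [coe_pu])
  refine ⟨h1.trans (by simp), ?_⟩
  simpa using! h2

theorem infData_cu (c : kˣ) : (infData k).v (cu c) = 0 ∧ (infData k).r (cu c) = c := by
  rw [cu_eq_pu]
  obtain ⟨h1, h2⟩ := infData_pu (k := k) (C_ne_zero.2 c.ne_zero)
  exact ⟨h1.trans (by simp), Units.ext (h2.trans (leadingCoeff_C _))⟩

theorem infData_unit (P : Place k) :
    (infData k).v P.unit = -(P.1.natDegree : ℤ) ∧ (infData k).r P.unit = 1 :=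
  ⟨(infData_pu P.ne_zero).1, Units.ext ((infData_pu P.ne_zero).2.trans P.monic.leadingCoeff)⟩

/-! ### The filtration by degree -/

/-- The units generated by the constants and the places of degree below `d`. -/
def smooth (d : ℕ) : Subgroup (RatFunc k)ˣ :=
  Subgroup.closure (Set.range cu ∪ Place.unit '' {P | P.1.natDegree < d})

theorem cu_mem (d : ℕ) (c : kˣ) : cu c ∈ smooth (k := k) d :=
  Subgroup.subset_closure (Or.inl ⟨c, rfl⟩)

theorem unit_mem {d : ℕ} {P : Place k} (h : P.1.natDegree < d) : P.unit ∈ smooth d :=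
  Subgroup.subset_closure (Or.inr ⟨P, h, rfl⟩)

theorem smooth_mono {m n : ℕ} (h : m ≤ n) : smooth (k := k) m ≤ smooth n :=
  Subgroup.closure_mono (Set.union_subset_union_right _
    (Set.image_mono fun _ hP => lt_of_lt_of_le hP h))

theorem neg_one_mem (d : ℕ) : (-1 : (RatFunc k)ˣ) ∈ smooth d := by
  rw [show (-1 : (RatFunc k)ˣ) = cu (-1) from Units.ext (by simp [coe_cu])]
  exact cu_mem d _

theorem neg_mem_smooth {d : ℕ} {a : (RatFunc k)ˣ} (ha : a ∈ smooth d) : -a ∈ smooth d := by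
  rw [← neg_one_mul a]
  exact mul_mem (neg_one_mem d) ha

theorem pu_mem : ∀ (f : k[X]) (hf : f ≠ 0) (d : ℕ),
    (∀ Q : Place k, Q.1 ∣ f → Q.1.natDegree < d) → pu f hf ∈ smooth d := by
  classical
  intro f
  induction f using UniqueFactorizationMonoid.induction_on_prime with
  | h₁ => exact fun hf => absurd rfl hf
  | h₂ x hx =>
    intro hf d _
    obtain ⟨r, hr, rfl⟩ := Polynomial.isUnit_iff.1 hx
    rw [show pu (C r) hf = cu hr.unit from
      (pu_congr (by rw [hr.unit_spec])).trans (cu_eq_pu hr.unit).symm]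
    exact cu_mem d _
  | h₃ a p ha hp ih =>
    intro hf d hd
    have hlc : p.leadingCoeff ≠ 0 := leadingCoeff_ne_zero.2 hp.ne_zero
    let Q : Place k := ⟨normalize p, monic_normalize hp.ne_zero,
      (normalize_associated p).symm.irreducible hp.irreducible⟩
    have hQ : p = C p.leadingCoeff * Q.1 := by
      show p = C p.leadingCoeff * normalize p
      rw [normalize_apply, coe_normUnit_of_ne_zero hp.ne_zero, mul_left_comm, ← map_mul,
        mul_inv_cancel₀ hlc, map_one, mul_one]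
    rw [pu_mul hp.ne_zero ha, show pu p hp.ne_zero = cu (Units.mk0 _ hlc) * Q.unit by
      rw [cu_eq_pu, Place.unit, ← pu_mul]
      exact pu_congr hQ]
    refine mul_mem (mul_mem (cu_mem d _) (unit_mem (hd Q ?_)))
      (ih ha d fun R hR => hd R (hR.mul_left p))
    exact dvd_mul_of_dvd_left ((normalize_associated p).dvd) a

theorem pu_mem_of_lt {d : ℕ} {f : k[X]} (hf : f ≠ 0) (h : f.natDegree < d) :
    pu f hf ∈ smooth d :=
  pu_mem f hf d fun _ hQ => lt_of_le_of_lt (natDegree_le_of_dvd hQ hf) h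

theorem exists_mem_smooth (a : (RatFunc k)ˣ) : ∃ d, a ∈ smooth d := by
  obtain ⟨f, g, hf, hg, -, rfl⟩ := exists_pu_div a
  exact ⟨max f.natDegree g.natDegree + 1,
    div_mem (pu_mem_of_lt hf (Nat.lt_succ_of_le (le_max_left _ _)))
      (pu_mem_of_lt hg (Nat.lt_succ_of_le (le_max_right _ _)))⟩

theorem v_eq_zero_of_mem {d : ℕ} {P : Place k} (hP : d ≤ P.1.natDegree) {a : (RatFunc k)ˣ}
    (ha : a ∈ smooth d) : (placeData P).v a = 0 := by
  induction ha using Subgroup.closure_induction with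
  | mem x hx =>
    rcases hx with ⟨c, rfl⟩ | ⟨Q, hQ, rfl⟩
    · exact (placeData_cu c).1
    · exact placeData_unit_ne fun e => absurd hP (not_le.2 (by rw [e]; exact hQ))
  | one => exact (placeData P).v_one
  | mul x y _ _ hx hy => rw [(placeData P).v_mul, hx, hy, add_zero]
  | inv x _ hx =>
    have := (placeData P).v_mul x x⁻¹
    rw [mul_inv_cancel, (placeData P).v_one, hx] at this
    omega

/-- The representative of least degree. -/
def rep (x : Res P) : k[X] := AdjoinRoot.modByMonicHom P.monic x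

theorem mk_rep (x : Res P) : AdjoinRoot.mk P.1 (rep x) = x :=
  AdjoinRoot.mk_leftInverse P.monic x

theorem rep_mk (g : k[X]) : rep (AdjoinRoot.mk P.1 g) = g %ₘ P.1 :=
  AdjoinRoot.modByMonicHom_mk P.monic g

theorem rep_natDegree (x : Res P) : (rep x).natDegree < P.1.natDegree := by
  rw [← mk_rep x, rep_mk]
  exact natDegree_modByMonic_lt _ P.monic P.irreducible.ne_one

theorem rep_ne_zero {x : Res P} (hx : x ≠ 0) : rep x ≠ 0 := fun e =>
  hx (by rw [← mk_rep x, e, map_zero])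

theorem not_dvd_of_natDegree_lt {g : k[X]} (hg : g ≠ 0) (h : g.natDegree < P.1.natDegree) :
    ¬ P.1 ∣ g := fun hd => absurd (natDegree_le_of_dvd hd hg) (not_le.2 h)

theorem rep_mk_of_lt {g : k[X]} (h : g.natDegree < P.1.natDegree) :
    rep (AdjoinRoot.mk P.1 g) = g := by
  rw [rep_mk, modByMonic_eq_self_iff P.monic]
  exact degree_lt_degree h

/-- The representative of a residue, as a unit. -/
def repUnit (x : (Res P)ˣ) : (RatFunc k)ˣ := pu (rep (x : Res P)) (rep_ne_zero x.ne_zero)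

theorem repUnit_mem {d : ℕ} (hd : P.1.natDegree = d) (x : (Res P)ˣ) : repUnit x ∈ smooth d :=
  pu_mem_of_lt _ (hd ▸ rep_natDegree _)

theorem placeData_repUnit (x : (Res P)ˣ) :
    (placeData P).v (repUnit x) = 0 ∧ (placeData P).r (repUnit x) = x := by
  obtain ⟨h1, h2⟩ := placeData_pu (rep_ne_zero x.ne_zero)
    (not_dvd_of_natDegree_lt (rep_ne_zero x.ne_zero) (rep_natDegree (x : Res P)))
  exact ⟨h1, Units.ext (h2.trans (mk_rep _))⟩

theorem exists_pu_div_of_mem {d : ℕ} {a : (RatFunc k)ˣ}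
    (ha : a ∈ smooth d) : ∃ (f g : k[X]) (hf : f ≠ 0) (hg : g ≠ 0), a = pu f hf / pu g hg ∧
      (∀ Q : Place k, Q.1 ∣ f → Q.1.natDegree < d) ∧
      ∀ Q : Place k, Q.1 ∣ g → Q.1.natDegree < d := by
  induction ha using Subgroup.closure_induction with
  | mem x hx =>
    rcases hx with ⟨c, rfl⟩ | ⟨R, hR, rfl⟩
    · refine ⟨_, 1, C_ne_zero.2 c.ne_zero, one_ne_zero, by rw [pu_one, div_one, cu_eq_pu],
        fun Q hQ => ?_, fun Q hQ => absurd hQ Q.irreducible.not_dvd_one⟩
      exact absurd (isUnit_of_dvd_unit hQ (isUnit_C.2 c.isUnit)) Q.irreducible.not_isUnit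
    · refine ⟨_, 1, R.ne_zero, one_ne_zero, by rw [pu_one, div_one]; rfl, fun Q hQ => ?_,
        fun Q hQ => absurd hQ Q.irreducible.not_dvd_one⟩
      rw [show Q = R from by_contra fun h => Place.not_dvd_of_ne h hQ]
      exact hR
  | one => exact ⟨1, 1, one_ne_zero, one_ne_zero, by simp,
      fun Q hQ => absurd hQ Q.irreducible.not_dvd_one,
      fun Q hQ => absurd hQ Q.irreducible.not_dvd_one⟩
  | mul x y _ _ hx hy =>
    obtain ⟨f, g, hf, hg, rfl, h1, h2⟩ := hx
    obtain ⟨f', g', hf', hg', rfl, h1', h2'⟩ := hy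
    exact ⟨_, _, mul_ne_zero hf hf', mul_ne_zero hg hg',
      by rw [pu_mul hf hf', pu_mul hg hg', div_mul_div_comm],
      fun Q hQ => (Q.irreducible.prime.dvd_mul.1 hQ).elim (h1 Q) (h1' Q),
      fun Q hQ => (Q.irreducible.prime.dvd_mul.1 hQ).elim (h2 Q) (h2' Q)⟩
  | inv x _ hx =>
    obtain ⟨f, g, hf, hg, rfl, h1, h2⟩ := hx
    exact ⟨g, f, hg, hf, inv_div _ _, h2, h1⟩

end Fermat.Agent.FunctionFieldMilnor
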