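import Fermat.Agent.FunctionFieldMilnor.K2

/-!
# Weil reciprocity

The norms of the tame symbols at all places of `k(t)`, infinity included, multiply to `1`: on two
monic irreducibles this is the symmetry of the resultant, as the norm of `g mod P` is `Res(P, g)`.
Over a finite field it is the reciprocity law for polynomials.
-/

set_option autoImplicit false

noncomputable section

open Polynomial
open scoped DirectSum Classical

namespace Fermat.Agent.FunctionFieldMilnor

open Fermat.Agent.K2Rat (SteinbergSymbol K2 univSymbol lift lift_univSymbol)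

universe u

variable {k : Type u} [Field k]

instance Place.finiteDimensional (P : Place k) : FiniteDimensional k (Res P) :=
  (AdjoinRoot.powerBasis' P.monic).finite

/-- The norm from a residue field. -/
def normUnit (P : Place k) : (Res P)ˣ →* kˣ :=
  Units.map (Algebra.norm k : Res P →* k)

theorem coe_normUnit (P : Place k) (x : (Res P)ˣ) :
    ((normUnit P x : kˣ) : k) = Algebra.norm k (x : Res P) := rfl

theorem finrank_res (P : Place k) : Module.finrank k (Res P) = P.1.natDegree :=
  (AdjoinRoot.powerBasis' P.monic).finrank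

/-- **The norm of a residue is a resultant.** -/
theorem norm_mk_eq_resultant (P : Place k) (g : k[X]) :
    Algebra.norm k (AdjoinRoot.mk P.1 g) = resultant P.1 g := by
  set pb := AdjoinRoot.powerBasis' P.monic
  set M := Algebra.leftMulMatrix pb.basis pb.gen
  have hdim : pb.dim = P.1.natDegree := rfl
  have hm : Fintype.card (Fin pb.dim) = P.1.natDegree := (Fintype.card_fin _).trans hdim
  have h1 : Algebra.norm k (AdjoinRoot.mk P.1 g) = (aeval M g).det := by
    rw [Algebra.norm_eq_matrix_det pb.basis]
    refine congrArg Matrix.det ?_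
    rw [← AdjoinRoot.aeval_eq]
    exact (aeval_algHom_apply (Algebra.leftMulMatrix pb.basis) pb.gen g).symm
  have hM : M.charpoly = P.1 := by
    rw [charpoly_leftMulMatrix pb]
    show minpoly k (AdjoinRoot.root P.1) = P.1
    rw [AdjoinRoot.minpoly_root P.ne_zero, P.monic.leadingCoeff, inv_one, C_1, mul_one]
  set A := AlgebraicClosure k
  set φ := algebraMap k A
  set M' := M.map φ
  have hP' : M'.charpoly = P.1.map φ := by rw [Matrix.charpoly_map, hM]
  have hsplit : (g.map φ).Splits := IsAlgClosed.splits _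
  set s := (g.map φ).roots
  have hcard : Multiset.card s = g.natDegree := by
    rw [← hsplit.natDegree_eq_card_roots, natDegree_map]
  have hdet : φ (aeval M g).det = (aeval M' (g.map φ)).det := by
    rw [RingHom.map_det]
    refine congrArg Matrix.det ?_
    rw [show aeval M' (g.map φ) = aeval M' g from aeval_map_algebraMap A M' g]
    exact (aeval_algHom_apply (Algebra.ofId k A).mapMatrix M g).symm
  have hlin : ∀ β : A, (aeval M' (X - C β)).det =
      (-1) ^ P.1.natDegree * (P.1.map φ).eval β := fun β => by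
    rw [← hP', Matrix.eval_charpoly, map_sub, aeval_X, aeval_C, ← neg_sub, Matrix.det_neg,
      hm]
    rfl
  have hprod : ∀ t : Multiset A[X],
      (aeval M' t.prod).det = (t.map fun q => (aeval M' q).det).prod := fun t =>
    map_multiset_prod (Matrix.detMonoidHom.comp (aeval M').toRingHom.toMonoidHom) t
  refine φ.injective ?_
  rw [h1, hdet]
  conv_lhs => rw [hsplit.eq_prod_roots]
  rw [map_mul, aeval_C, Matrix.det_mul, Algebra.algebraMap_eq_smul_one, Matrix.det_smul,
    Matrix.det_one, mul_one, hm, hprod, Multiset.map_map]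
  rw [show s.map ((fun q => (aeval M' q).det) ∘ fun β => X - C β) =
      s.map fun β => (-1) ^ P.1.natDegree * (P.1.map φ).eval β from
    Multiset.map_congr rfl fun β _ => hlin β]
  rw [Multiset.prod_map_mul, Multiset.map_const', Multiset.prod_replicate, hcard,
    ← resultant_map_map, resultant_comm]
  have := resultant_eq_prod_eval (g.map φ) (P.1.map φ) P.1.natDegree natDegree_map_le hsplit
  rw [natDegree_map] at this
  rw [this, ← pow_mul]
  ring

theorem norm_mk_swap (P Q : Place k) :
    Algebra.norm k (AdjoinRoot.mk P.1 Q.1) =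
      (-1) ^ (P.1.natDegree * Q.1.natDegree) * Algebra.norm k (AdjoinRoot.mk Q.1 P.1) := by
  rw [norm_mk_eq_resultant, norm_mk_eq_resultant, resultant_comm]

/-- The norms of all components multiplied. -/
def normSum : TameTarget k →+ Additive kˣ :=
  DirectSum.toAddMonoid fun P => MonoidHom.toAdditive (normUnit P)

theorem normSum_of (P : Place k) (x : Additive (Res P)ˣ) :
    normSum (DirectSum.of (fun Q : Place k => Additive (Res Q)ˣ) P x) =
      Additive.ofMul (normUnit P x.toMul) := by
  rw [normSum, DirectSum.toAddMonoid_of]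
  rfl

theorem tameSum_cu_cu (c c' : kˣ) : tameSum (cu (k := k) c) (cu c') = 0 := DirectSum.ext fun P => by
  rw [tameSum_apply, PlaceData.tame_eq_zero _ (placeData_cu c).1 (placeData_cu c').1]
  rfl

theorem tameSum_cu_unit (c : kˣ) (P : Place k) : tameSum (cu c) P.unit =
    DirectSum.of (fun Q : Place k => Additive (Res Q)ˣ) P
      (Additive.ofMul (Units.map (AdjoinRoot.of P.1).toMonoidHom c)) := DirectSum.ext fun Q => by
  rw [tameSum_apply, PlaceData.tame_of_v_zero _ (placeData_cu c).1, (placeData_cu c).2]
  rcases eq_or_ne Q P with rfl | hne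
  · rw [placeData_self.1, zpow_one, DirectSum.of_eq_same]
  · rw [placeData_unit_ne hne, zpow_zero, DirectSum.of_eq_of_ne _ _ _ hne]
    rfl

theorem tameSum_unit_unit {P Q : Place k} (h : P ≠ Q) : tameSum P.unit Q.unit =
    DirectSum.of (fun R : Place k => Additive (Res R)ˣ) P
        (Additive.ofMul ((placeData P).r Q.unit)⁻¹) +
      DirectSum.of (fun R : Place k => Additive (Res R)ˣ) Q
        (Additive.ofMul ((placeData Q).r P.unit)) := DirectSum.ext fun R => by
  rw [tameSum_apply, PlaceData.tame_apply, DirectSum.add_apply]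
  rcases eq_or_ne R P with rfl | hP
  · rw [DirectSum.of_eq_same, DirectSum.of_eq_of_ne _ _ _ h, add_zero,
      placeData_unit_ne h, placeData_self.1]
    simp
  rcases eq_or_ne R Q with rfl | hQ
  · rw [DirectSum.of_eq_same, DirectSum.of_eq_of_ne _ _ _ hP, zero_add,
      placeData_unit_ne hP, placeData_self.1]
    simp
  · rw [DirectSum.of_eq_of_ne _ _ _ hP, DirectSum.of_eq_of_ne _ _ _ hQ, add_zero,
      placeData_unit_ne hP, placeData_unit_ne hQ]
    simp

/-- The product of all norms, infinity included. -/
def weilHom : K2 (RatFunc k) →+ Additive kˣ :=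
  normSum.comp ((AddMonoidHom.snd _ _).comp (lift (allSymbols (k := k)))) +
    lift (infData k).tame

theorem weilHom_sy (a b : (RatFunc k)ˣ) :
    weilHom (univSymbol (RatFunc k) a b) = normSum (tameSum a b) + (infData k).tame a b := by
  rw [weilHom, AddMonoidHom.add_apply, AddMonoidHom.comp_apply, AddMonoidHom.comp_apply,
    lift_univSymbol, lift_univSymbol]
  rfl

theorem weilHom_cu_unit (c : kˣ) (P : Place k) :
    weilHom (univSymbol (RatFunc k) (cu c) P.unit) = 0 := by
  rw [weilHom_sy, tameSum_cu_unit, normSum_of, PlaceData.tame_of_v_zero _ (infData_cu c).1,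
    (infData_cu c).2, (infData_unit P).1, ← ofMul_mul, ofMul_eq_zero]
  have : normUnit P (Units.map (AdjoinRoot.of P.1).toMonoidHom c) = c ^ (P.1.natDegree : ℤ) := by
    refine Units.ext ?_
    rw [coe_normUnit, zpow_natCast, Units.val_pow_eq_pow_val, ← finrank_res P]
    exact Algebra.norm_algebraMap (S := Res P) (c : k)
  rw [show (Additive.ofMul (Units.map (AdjoinRoot.of P.1).toMonoidHom c)).toMul =
    Units.map (AdjoinRoot.of P.1).toMonoidHom c from rfl, this, zpow_neg, mul_inv_cancel]

theorem weilHom_unit_unit {P Q : Place k} (h : P ≠ Q) :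
    weilHom (univSymbol (RatFunc k) P.unit Q.unit) = 0 := by
  rw [weilHom_sy, tameSum_unit_unit h, map_add, normSum_of, normSum_of, PlaceData.tame_apply,
    (infData_unit P).1, (infData_unit Q).1, (infData_unit P).2, (infData_unit Q).2, one_zpow,
    one_zpow, mul_one, div_one, neg_mul_neg, ← Nat.cast_mul, zpow_natCast, ← ofMul_mul,
    ← ofMul_mul, ofMul_eq_zero]
  simp only [toMul_ofMul, map_inv]
  have hP : ((placeData P).r Q.unit : Res P) = AdjoinRoot.mk P.1 Q.1 :=
    (placeData_pu Q.ne_zero (Place.not_dvd_of_ne h)).2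
  have hQ : ((placeData Q).r P.unit : Res Q) = AdjoinRoot.mk Q.1 P.1 :=
    (placeData_pu P.ne_zero (Place.not_dvd_of_ne h.symm)).2
  have he : normUnit P ((placeData P).r Q.unit) =
      (-1) ^ (P.1.natDegree * Q.1.natDegree) * normUnit Q ((placeData Q).r P.unit) :=
    Units.ext (by
      rw [Units.val_mul, coe_normUnit, coe_normUnit, hP, hQ, norm_mk_swap]
      simp)
  rw [he, mul_assoc, mul_comm (normUnit Q _) ((-1) ^ _), inv_mul_cancel]

theorem weilHom_eq_zero : (weilHom : K2 (RatFunc k) →+ Additive kˣ) = 0 := by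
  have hskew : ∀ a b : (RatFunc k)ˣ, weilHom (univSymbol (RatFunc k) a b) = 0 →
      weilHom (univSymbol (RatFunc k) b a) = 0 := fun a b h => by
    have := congrArg weilHom ((univSymbol (RatFunc k)).skew a b)
    rwa [map_add, h, zero_add, map_zero] at this
  have hcc : ∀ c c' : kˣ, weilHom (univSymbol (RatFunc k) (cu c) (cu c')) = 0 := fun c c' => by
    rw [weilHom_sy, tameSum_cu_cu, map_zero, zero_add,
      PlaceData.tame_eq_zero _ (infData_cu c).1 (infData_cu c').1]
  have hpp : ∀ P Q : Place k, weilHom (univSymbol (RatFunc k) P.unit Q.unit) = 0 := fun P Q => by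
    rcases eq_or_ne P Q with rfl | h
    · rw [(univSymbol _).self_eq, show (-1 : (RatFunc k)ˣ) = cu (-1) from
        Units.ext (by simp [coe_cu])]
      exact hskew _ _ (weilHom_cu_unit _ P)
    · exact weilHom_unit_unit h
  refine Fermat.Agent.K2Rat.hom_ext fun a b => ?_
  obtain ⟨m, ha⟩ := exists_mem_smooth a
  obtain ⟨n, hb⟩ := exists_mem_smooth b
  rw [AddMonoidHom.zero_apply]
  induction ha using Subgroup.closure_induction with
  | mem x hx =>
    induction hb using Subgroup.closure_induction with
    | mem y hy =>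
      rcases hx with ⟨c, rfl⟩ | ⟨P, -, rfl⟩ <;> rcases hy with ⟨c', rfl⟩ | ⟨Q, -, rfl⟩
      exacts [hcc c c', weilHom_cu_unit c Q, hskew _ _ (weilHom_cu_unit c' P), hpp P Q]
    | one => rw [(univSymbol _).one_right, map_zero]
    | mul y y' _ _ h h' => rw [(univSymbol _).mul_right, map_add, h, h', add_zero]
    | inv y _ h => rw [(univSymbol _).inv_right, map_neg, h, neg_zero]
  | one => rw [(univSymbol _).one_left, map_zero]
  | mul x x' _ _ h h' => rw [(univSymbol _).mul_left, map_add, h, h', add_zero]
  | inv x _ h => rw [(univSymbol _).inv_left, map_neg, h, neg_zero]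

/-- **Weil reciprocity.** -/
theorem weil_reciprocity (a b : (RatFunc k)ˣ) :
    (∏ᶠ P : Place k, normUnit P ((placeData P).tame a b).toMul) *
      ((infData k).tame a b).toMul = 1 := by
  have h := DFunLike.congr_fun (weilHom_eq_zero (k := k)) (univSymbol (RatFunc k) a b)
  rw [weilHom_sy, AddMonoidHom.zero_apply] at h
  have hs : (normSum (tameSum a b)).toMul =
      ∏ᶠ P : Place k, normUnit P ((placeData P).tame a b).toMul := by
    rw [finprod_eq_prod_of_mulSupport_subset (s := (tameSum a b).support) _ (fun P hP => by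
        refine DFinsupp.mem_support_iff.2 fun e => hP ?_
        show normUnit P ((placeData P).tame a b).toMul = 1
        rw [← tameSum_apply]
        exact (congrArg (fun z => normUnit P (Additive.toMul z)) e).trans (map_one _))]
    conv_lhs => rw [← DirectSum.sum_support_of (tameSum a b), map_sum, toMul_sum]
    exact Finset.prod_congr rfl fun P _ => by rw [normSum_of, tameSum_apply]; rfl
  rw [← hs, ← toMul_add, h]
  rfl

/-! ### Finite fields -/

theorem isSquare_iff_isSquare_norm [Finite k] (h2 : (2 : k) ≠ 0) (P : Place k) {x : Res P}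
    (hx : x ≠ 0) : IsSquare x ↔ IsSquare (Algebra.norm k x) := by
  refine ⟨fun ⟨y, hy⟩ => ⟨Algebra.norm k y, by rw [hy, map_mul]⟩, fun h => ?_⟩
  have := Module.finite_of_finite k (M := Res P)
  have := Fintype.ofFinite k
  have := Fintype.ofFinite (Res P)
  have hk : ringChar k ≠ 2 := fun e => h2 (by
    rw [show (2 : k) = ((2 : ℕ) : k) from Nat.cast_ofNat.symm, ← e,
      ringChar.Nat.cast_ringChar])
  have hK : ringChar (Res P) ≠ 2 := by rwa [← Algebra.ringChar_eq k (Res P)]
  rw [FiniteField.isSquare_iff hK hx]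
  have hn : Algebra.norm k x ≠ 0 := Algebra.norm_ne_zero_iff.2 hx
  have he := congrArg (algebraMap k (Res P)) ((FiniteField.isSquare_iff hk hn).1 h)
  rw [map_pow, map_one, FiniteField.algebraMap_norm_eq_pow, ← pow_mul,
    ← Fintype.card_eq_nat_card, ← Fintype.card_eq_nat_card] at he
  have hdvd : Fintype.card k - 1 ∣ Fintype.card (Res P) - 1 := by
    rw [Module.card_eq_pow_finrank (K := k) (V := Res P)]
    simpa using Nat.sub_dvd_pow_sub_pow (Fintype.card k) 1 (Module.finrank k (Res P))
  obtain ⟨t, ht⟩ := hdvd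
  have hodd : Fintype.card k % 2 = 1 := FiniteField.odd_card_of_char_ne_two hk
  have hodd' : Fintype.card (Res P) % 2 = 1 := FiniteField.odd_card_of_char_ne_two hK
  have h1 : 1 < Fintype.card k := Fintype.one_lt_card
  rw [ht, Nat.mul_div_cancel_left _ (by omega)] at he
  obtain ⟨s, hs⟩ : ∃ s, Fintype.card k = 2 * s + 1 := ⟨Fintype.card k / 2, by omega⟩
  rw [hs, show (2 * s + 1) / 2 = s by omega, mul_comm] at he
  rw [hs, show 2 * s + 1 - 1 = 2 * s by omega, mul_assoc] at ht
  rwa [show Fintype.card (Res P) / 2 = s * t by omega]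

/-- **Quadratic reciprocity for polynomials over a finite field.** -/
theorem quadratic_reciprocity [Finite k] (h2 : (2 : k) ≠ 0) {P Q : Place k} (h : P ≠ Q) :
    (IsSquare (AdjoinRoot.mk P.1 Q.1) ↔ IsSquare (AdjoinRoot.mk Q.1 P.1)) ↔
      (IsSquare (-1 : k) ∨ Even (P.1.natDegree * Q.1.natDegree)) := by
  have hP : AdjoinRoot.mk P.1 Q.1 ≠ 0 := fun e => Place.not_dvd_of_ne h (P.mk_eq_zero.1 e)
  have hQ : AdjoinRoot.mk Q.1 P.1 ≠ 0 := fun e =>
    Place.not_dvd_of_ne h.symm (Q.mk_eq_zero.1 e)
  rw [isSquare_iff_isSquare_norm h2 P hP, isSquare_iff_isSquare_norm h2 Q hQ, norm_mk_swap]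
  set n := Algebra.norm k (AdjoinRoot.mk Q.1 P.1)
  have hn : n ≠ 0 := Algebra.norm_ne_zero_iff.2 hQ
  rcases Nat.even_or_odd (P.1.natDegree * Q.1.natDegree) with he | ho
  · simp [he.neg_one_pow, he]
  rw [ho.neg_one_pow, neg_one_mul, or_iff_left (Nat.not_even_iff_odd.2 ho)]
  have := Fintype.ofFinite k
  have hk : ringChar k ≠ 2 := fun e => h2 (by
    rw [show (2 : k) = ((2 : ℕ) : k) from Nat.cast_ofNat.symm, ← e,
      ringChar.Nat.cast_ringChar])
  rw [← quadraticChar_one_iff_isSquare (neg_ne_zero.2 hn),
    ← quadraticChar_one_iff_isSquare hn, ← quadraticChar_one_iff_isSquare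
      (neg_ne_zero.2 one_ne_zero), neg_eq_neg_one_mul n, map_mul]
  rcases quadraticChar_dichotomy (F := k) (neg_ne_zero.2 one_ne_zero) with e | e <;>
    rcases quadraticChar_dichotomy hn with e' | e' <;> simp [e, e']

end Fermat.Agent.FunctionFieldMilnor
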