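import Fermat.Agent.FunctionFieldMilnor.K2
import Fermat.Agent.WittRat.Diagonal

/-!
# Milnor's theorem on the Witt group of `k(t)`

Modulo the classes of smaller degree `⟨P u⟩` depends only on the residue of `u` and is additive in
it: this inverts the second residue at `P`. So the second residues and the first residue at
infinity are an isomorphism.
-/

set_option autoImplicit false

noncomputable section

open Polynomial
open scoped DirectSum Classical

namespace Fermat.Agent.FunctionFieldMilnor

open Fermat.Agent.WittRat (WittMap W wittClass scale scale_wittClass closure_range_wittClass)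

universe u

variable {k : Type u} [Field k]

local notation "wc" => wittClass (RatFunc k)

/-- The classes of the units of degree below `d`. -/
def layer (d : ℕ) : AddSubgroup (W (RatFunc k)) :=
  AddSubgroup.closure (wittClass (RatFunc k) '' (smooth (k := k) d : Set (RatFunc k)ˣ))

theorem wc_mem_layer {d : ℕ} {a : (RatFunc k)ˣ} (h : a ∈ smooth d) : wc a ∈ layer d :=
  AddSubgroup.subset_closure ⟨a, h, rfl⟩

theorem layer_mono {m n : ℕ} (h : m ≤ n) : layer (k := k) m ≤ layer n :=
  AddSubgroup.closure_mono (Set.image_mono (smooth_mono h))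

theorem exists_mem_layer (z : W (RatFunc k)) : ∃ d, z ∈ layer d := by
  have h : z ∈ AddSubgroup.closure (Set.range (wittClass (RatFunc k))) := by
    rw [closure_range_wittClass]
    exact AddSubgroup.mem_top z
  induction h using AddSubgroup.closure_induction with
  | mem x hx =>
    obtain ⟨a, rfl⟩ := hx
    obtain ⟨n, hn⟩ := exists_mem_smooth a
    exact ⟨n, wc_mem_layer hn⟩
  | zero => exact ⟨0, zero_mem _⟩
  | add x y _ _ hx hy =>
    obtain ⟨m, hm⟩ := hx
    obtain ⟨n, hn⟩ := hy
    exact ⟨max m n, add_mem (layer_mono (le_max_left m n) hm) (layer_mono (le_max_right m n) hn)⟩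
  | neg x _ hx =>
    obtain ⟨n, hn⟩ := hx
    exact ⟨n, neg_mem hn⟩

/-- **The second residue at `P`.** -/
def secondRes (P : Place k) : W (RatFunc k) →+ W (Res P) :=
  WittRat.lift ((placeData P).residue 1)

theorem secondRes_of_odd {P : Place k} {a : (RatFunc k)ˣ} (h : Odd ((placeData P).v a)) :
    secondRes P (wc a) = wittClass (Res P) ((placeData P).r a) := by
  rw [secondRes, WittRat.lift_wittClass, PlaceData.residue_of_even _ h.add_one]

theorem secondRes_of_even {P : Place k} {a : (RatFunc k)ˣ} (h : Even ((placeData P).v a)) :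
    secondRes P (wc a) = 0 := by
  rw [secondRes, WittRat.lift_wittClass,
    PlaceData.residue_of_not_even _ (Int.not_even_iff_odd.2 h.add_one)]

theorem secondRes_eq_zero_of_mem {d : ℕ} {P : Place k} (hP : d ≤ P.1.natDegree)
    {z : W (RatFunc k)} (hz : z ∈ layer d) : secondRes P z = 0 := by
  refine (AddSubgroup.closure_le (secondRes P).ker).2 ?_ hz
  rintro _ ⟨a, ha, rfl⟩
  exact secondRes_of_even (by rw [v_eq_zero_of_mem hP ha]; exact Even.zero)

section Step

variable {d : ℕ}

/-- The class of `P u` modulo smaller degree. -/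
def top (d : ℕ) (P : Place k) (u : (RatFunc k)ˣ) : W (RatFunc k) ⧸ layer (k := k) d :=
  QuotientAddGroup.mk (wc (P.unit * u))

theorem top_mul_sq (P : Place k) (u v : (RatFunc k)ˣ) : top d P (u * v ^ 2) = top d P u := by
  rw [top, top, ← mul_assoc, (wc).mul_sq]

theorem mk_eq_zero_of_mem {a : (RatFunc k)ˣ} (h : a ∈ smooth d) :
    (QuotientAddGroup.mk (wc a) : W (RatFunc k) ⧸ layer (k := k) d) = 0 :=
  (QuotientAddGroup.eq_zero_iff _).2 (wc_mem_layer h)

variable {P : Place k} (hP : P.1.natDegree = d)

include hP

/-- **Milnor's key relation.** -/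
theorem top_key {f g : k[X]} (hf : f ≠ 0) (hg : g ≠ 0) (hfd : f.natDegree < d)
    (hgd : g.natDegree < d) {w : (RatFunc k)ˣ} (hw : w ∈ smooth d) :
    top d P (pu f hf * pu g hg * w) =
      top d P (repUnit ((placeData P).r (pu f hf) * (placeData P).r (pu g hg)) * w) := by
  have hnf := not_dvd_of_natDegree_lt hf (hP ▸ hfd)
  have hng := not_dvd_of_natDegree_lt hg (hP ▸ hgd)
  have hr : rep ((((placeData P).r (pu f hf) * (placeData P).r (pu g hg) : (Res P)ˣ)) : Res P) =
      (f * g) %ₘ P.1 := by
    rw [Units.val_mul, (placeData_pu hf hnf).2, (placeData_pu hg hng).2, ← map_mul, rep_mk]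
  set H := repUnit ((placeData P).r (pu f hf) * (placeData P).r (pu g hg))
  have hH : (H : RatFunc k) = alg ((f * g) %ₘ P.1) := by
    rw [← hr]
    rfl
  have he : (H : RatFunc k) + alg P.1 * alg ((f * g) /ₘ P.1) = alg f * alg g := by
    rw [hH, ← map_mul, ← map_add, modByMonic_add_div, map_mul]
  by_cases hq : (f * g) /ₘ P.1 = 0
  · rw [hq, map_zero, mul_zero, add_zero] at he
    rw [show H = pu f hf * pu g hg from Units.ext (by rw [he]; rfl)]
  set Q := pu _ hq
  set G := pu f hf * pu g hg
  have hG : G ∈ smooth d := mul_mem (pu_mem_of_lt hf hfd) (pu_mem_of_lt hg hgd)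
  have hHs : H ∈ smooth d := repUnit_mem hP _
  have hQ : Q ∈ smooth d := pu_mem_of_lt hq (by
    rw [natDegree_divByMonic _ P.monic, natDegree_mul hf hg]
    omega)
  have hb := (wc).binary H (P.unit * Q) G (by
    simp only [Place.unit, Units.val_mul, coe_pu, Q, G]
    exact he)
  have h1 := congrArg (fun y => (QuotientAddGroup.mk (scale (Q * H * w) y) :
    W (RatFunc k) ⧸ layer (k := k) d)) hb
  simp only [map_add, scale_wittClass, QuotientAddGroup.mk_add] at h1
  rw [mk_eq_zero_of_mem (mul_mem (mul_mem (mul_mem hQ hHs) hw) hHs),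
    mk_eq_zero_of_mem (mul_mem (mul_mem (mul_mem hQ hHs) hw) hG)] at h1
  replace h1 := add_left_cancel h1
  rw [show Q * H * w * (P.unit * Q) = P.unit * (H * w * Q ^ 2) by rw [pow_two]; ac_rfl,
    show Q * H * w * (H * (P.unit * Q) * G) = P.unit * (G * w * (Q * H) ^ 2) by
      rw [pow_two]; ac_rfl] at h1
  rw [← top_mul_sq P (G * w) (Q * H), ← top_mul_sq P (H * w) Q]
  exact h1.symm

theorem top_poly : ∀ (f : k[X]) (hf : f ≠ 0), (∀ Q : Place k, Q.1 ∣ f → Q.1.natDegree < d) →
    ∀ w ∈ smooth d, top d P (pu f hf * w) = top d P (repUnit ((placeData P).r (pu f hf)) * w) := by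
  intro f
  induction f using UniqueFactorizationMonoid.induction_on_prime with
  | h₁ => exact fun hf => absurd rfl hf
  | h₂ x hx =>
    intro hf _ w _
    have hx0 : x.natDegree < P.1.natDegree := by
      rw [natDegree_eq_zero_of_isUnit hx]; exact P.natDegree_pos
    rw [show repUnit ((placeData P).r (pu x hf)) = pu x hf from pu_congr (by
      rw [(placeData_pu hf (not_dvd_of_natDegree_lt hf hx0)).2, rep_mk_of_lt hx0])]
  | h₃ a p ha hp ih =>
    intro hf hd w hw
    let Q : Place k := ⟨normalize p, monic_normalize hp.ne_zero,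
      (normalize_associated p).symm.irreducible hp.irreducible⟩
    have hQd : Q.1.natDegree < d := hd Q (dvd_mul_of_dvd_left ((normalize_associated p).dvd) a)
    have hpd : p.natDegree < d := lt_of_le_of_lt
      (natDegree_le_of_dvd ((normalize_associated p).symm.dvd) Q.ne_zero) hQd
    set y := (placeData P).r (pu a ha)
    have hk := top_key hP hp.ne_zero (rep_ne_zero y.ne_zero) hpd (hP ▸ rep_natDegree _) hw
    rw [show (placeData P).r (pu (rep (y : Res P)) (rep_ne_zero y.ne_zero)) = y from
      (placeData_repUnit y).2] at hk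
    rw [pu_mul hp.ne_zero ha, map_mul, mul_comm (pu p _), mul_assoc,
      ih ha (fun R hR => hd R (hR.mul_left p)) _ (mul_mem (pu_mem_of_lt hp.ne_zero hpd) hw),
      ← hk, ← mul_assoc, mul_comm (repUnit y)]
    rfl

theorem top_repUnit_mul_sq (x y : (Res P)ˣ) :
    top d P (repUnit (x * y ^ 2)) = top d P (repUnit x) := by
  have hne : rep (x : Res P) * (rep (y : Res P) * rep (y : Res P)) ≠ 0 :=
    mul_ne_zero (rep_ne_zero x.ne_zero)
      (mul_ne_zero (rep_ne_zero y.ne_zero) (rep_ne_zero y.ne_zero))
  have he : pu _ hne = repUnit x * repUnit y ^ 2 := Units.ext (by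
    simp [repUnit, coe_pu, pow_two])
  have h := top_poly hP _ hne (fun Q hQ => by
    rcases Q.irreducible.prime.dvd_mul.1 hQ with h | h
    · exact lt_of_le_of_lt (natDegree_le_of_dvd h (rep_ne_zero x.ne_zero)) (hP ▸ rep_natDegree _)
    · exact lt_of_le_of_lt (natDegree_le_of_dvd ((Q.irreducible.prime.dvd_mul.1 h).elim id id)
        (rep_ne_zero y.ne_zero)) (hP ▸ rep_natDegree _)) 1 (one_mem _)
  rw [mul_one, mul_one, he, top_mul_sq, map_mul, map_pow, (placeData_repUnit x).2,
    (placeData_repUnit y).2] at h
  exact h.symm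

/-- **Only the residue matters.** -/
theorem top_eq_rep {u : (RatFunc k)ˣ} (hu : u ∈ smooth d) :
    top d P u = top d P (repUnit ((placeData P).r u)) := by
  obtain ⟨f, g, hf, hg, rfl, hfd, hgd⟩ := exists_pu_div_of_mem hu
  have h := top_poly hP (f * g) (mul_ne_zero hf hg) (fun Q hQ =>
    (Q.irreducible.prime.dvd_mul.1 hQ).elim (hfd Q) (hgd Q)) 1 (one_mem _)
  rw [mul_one, mul_one, pu_mul hf hg,
    show pu f hf * pu g hg = pu f hf / pu g hg * pu g hg ^ 2 by
      rw [pow_two, ← mul_assoc, div_mul_cancel],
    top_mul_sq, map_mul, map_pow, top_repUnit_mul_sq hP] at h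
  exact h

omit hP in
theorem rep_units_neg (x : (Res P)ˣ) : repUnit (-x) = -repUnit x := Units.ext (by
  rw [Units.val_neg, repUnit, repUnit, coe_pu, coe_pu, ← map_neg, Units.val_neg, rep, rep,
    map_neg])

/-- The inverse of the residue. -/
def topMap : WittMap (Res P) (W (RatFunc k) ⧸ layer (k := k) d) where
  toFun x := top d P (repUnit x)
  mul_sq x y := top_repUnit_mul_sq hP x y
  add_neg x := by
    rw [rep_units_neg, top, top, ← QuotientAddGroup.mk_add, mul_neg, (wc).add_neg]
    rfl
  binary x y z h := by
    have he : (repUnit x : RatFunc k) + repUnit y = repUnit z := by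
      rw [repUnit, repUnit, repUnit, coe_pu, coe_pu, coe_pu, ← h, rep, rep, rep]
      simp only [map_add]
    have hb := (wc).binary (P.unit * repUnit x) (P.unit * repUnit y) (P.unit * repUnit z) (by
      rw [Units.val_mul, Units.val_mul, Units.val_mul, ← mul_add, he])
    rw [show P.unit * repUnit x * (P.unit * repUnit y) * (P.unit * repUnit z) =
      P.unit * (repUnit x * repUnit y * repUnit z) * P.unit ^ 2 by rw [pow_two]; ac_rfl,
      (wc).mul_sq] at hb
    have h3 := top_eq_rep hP (mul_mem (mul_mem (repUnit_mem hP x) (repUnit_mem hP y))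
      (repUnit_mem hP z))
    rw [map_mul, map_mul, (placeData_repUnit x).2, (placeData_repUnit y).2,
      (placeData_repUnit z).2] at h3
    show top d P _ + top d P _ = top d P _ + top d P _
    rw [← h3]
    exact congrArg (QuotientAddGroup.mk (s := layer (k := k) d)) hb

end Step

/-- All inverses at degree `d`. -/
def psi (d : ℕ) : (⨁ P : {P : Place k // P.1.natDegree = d}, W (Res P.1)) →+
    W (RatFunc k) ⧸ layer (k := k) d :=
  DirectSum.toAddMonoid fun P => WittRat.lift (topMap P.2)

theorem psi_of {d : ℕ} (P : {P : Place k // P.1.natDegree = d}) (x : (Res P.1)ˣ) :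
    psi d (DirectSum.of (fun P : {P : Place k // P.1.natDegree = d} => W (Res P.1)) P
      (wittClass (Res P.1) x)) = top d P.1 (repUnit x) := by
  rw [psi, DirectSum.toAddMonoid_of, WittRat.lift_wittClass]
  rfl

theorem top_mem_range {d : ℕ} {P : Place k} (hP : P.1.natDegree = d) {u : (RatFunc k)ˣ}
    (hu : u ∈ smooth d) : top d P u ∈ (psi (k := k) d).range :=
  ⟨_, (psi_of ⟨P, hP⟩ _).trans (top_eq_rep hP hu).symm⟩

theorem mk_prod_mem_range {d : ℕ} : ∀ (n : ℕ) (l : List (Place k)), l.length = n →
    (∀ P ∈ l, P.1.natDegree = d) → ∀ u ∈ smooth (k := k) d,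
      (QuotientAddGroup.mk (wc ((l.map Place.unit).prod * u)) :
        W (RatFunc k) ⧸ layer (k := k) d) ∈ (psi d).range := by
  intro n
  induction n using Nat.strong_induction_on with
  | _ n ih =>
    intro l hl hdeg u hu
    match l, hl, hdeg with
    | [], _, _ =>
      rw [List.map_nil, List.prod_nil, one_mul, mk_eq_zero_of_mem hu]
      exact zero_mem _
    | [P], _, hdeg =>
      rw [List.map_cons, List.map_nil, List.prod_cons, List.prod_nil, mul_one]
      exact top_mem_range (hdeg P (by simp)) hu
    | P :: Q :: l, hl, hdeg =>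
      simp only [List.length_cons] at hl
      simp only [List.forall_mem_cons] at hdeg
      obtain ⟨hP, hQ, hl'⟩ := hdeg
      simp only [List.map_cons, List.prod_cons]
      rcases eq_or_ne P Q with rfl | hne
      · rw [show P.unit * (P.unit * (l.map Place.unit).prod) * u =
          (l.map Place.unit).prod * u * P.unit ^ 2 by rw [pow_two]; ac_rfl, (wc).mul_sq]
        exact ih l.length (by omega) l rfl hl' u hu
      have hr0 : Q.1 - P.1 ≠ 0 := sub_ne_zero.2 fun e => hne (Subtype.ext e.symm)
      have hrd : (Q.1 - P.1).natDegree < d :=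
        (natDegree_lt_natDegree hr0 (degree_sub_lt_left (by
          rw [degree_eq_natDegree Q.ne_zero, degree_eq_natDegree P.ne_zero, hP, hQ]) Q.ne_zero
          (Q.monic.leadingCoeff.trans P.monic.leadingCoeff.symm))).trans_eq hQ
      set R := pu _ hr0
      have hR : R ∈ smooth d := pu_mem_of_lt hr0 hrd
      set M := (l.map Place.unit).prod
      have hb := (wc).binary P.unit R Q.unit (by
        simp only [Place.unit, R, coe_pu]
        rw [← map_add, add_sub_cancel])
      have h1 := congrArg (fun y => (QuotientAddGroup.mk (scale (u * R * M) y) :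
        W (RatFunc k) ⧸ layer (k := k) d)) hb
      simp only [map_add, scale_wittClass, QuotientAddGroup.mk_add] at h1
      rw [show u * R * M * P.unit = (P.unit * M) * (u * R) by ac_rfl,
        show u * R * M * R = M * u * R ^ 2 by rw [pow_two]; ac_rfl,
        show u * R * M * Q.unit = (Q.unit * M) * (u * R) by ac_rfl,
        show u * R * M * (P.unit * R * Q.unit) = P.unit * (Q.unit * M) * u * R ^ 2 by
          rw [pow_two]; ac_rfl, (wc).mul_sq, (wc).mul_sq] at h1
      have hs : ∀ S : Place k, S.1.natDegree = d →
          (QuotientAddGroup.mk (wc ((S.unit * M) * (u * R))) :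
            W (RatFunc k) ⧸ layer (k := k) d) ∈ (psi d).range := fun S hS => by
        have := ih (l.length + 1) (by omega) (S :: l) rfl (List.forall_mem_cons.2 ⟨hS, hl'⟩) _
          (mul_mem hu hR)
        rwa [List.map_cons, List.prod_cons] at this
      rw [eq_sub_of_add_eq' h1.symm]
      exact sub_mem (add_mem (hs P hP) (ih l.length (by omega) l rfl hl' u hu)) (hs Q hQ)

theorem exists_list_of_mem {d : ℕ} {a : (RatFunc k)ˣ} (ha : a ∈ smooth (d + 1)) :
    ∃ (l : List (Place k)) (u v : (RatFunc k)ˣ), (∀ P ∈ l, P.1.natDegree = d) ∧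
      u ∈ smooth d ∧ a = (l.map Place.unit).prod * u * v ^ 2 := by
  induction ha using Subgroup.closure_induction with
  | mem x hx =>
    rcases hx with ⟨c, rfl⟩ | ⟨P, hP, rfl⟩
    · exact ⟨[], cu c, 1, by simp, cu_mem d c, by simp⟩
    · rcases lt_or_eq_of_le (Nat.le_of_lt_succ hP) with h | h
      · exact ⟨[], P.unit, 1, by simp, unit_mem h, by simp⟩
      · exact ⟨[P], 1, 1, by simpa using h, one_mem _, by simp⟩
  | one => exact ⟨[], 1, 1, by simp, one_mem _, by simp⟩
  | mul x y _ _ hx hy =>
    obtain ⟨l, u, v, hl, hu, rfl⟩ := hx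
    obtain ⟨l', u', v', hl', hu', rfl⟩ := hy
    exact ⟨l ++ l', u * u', v * v', List.forall_mem_append.2 ⟨hl, hl'⟩, mul_mem hu hu', by
      rw [List.map_append, List.prod_append, mul_pow]; ac_rfl⟩
  | inv x _ hx =>
    obtain ⟨l, u, v, hl, hu, rfl⟩ := hx
    refine ⟨l, u, v / ((l.map Place.unit).prod * u * v ^ 2), hl, hu, ?_⟩
    rw [div_pow, ← mul_div_assoc, pow_two ((l.map Place.unit).prod * u * v ^ 2),
      div_mul_cancel_left]

/-- **Descent by one degree.** -/
theorem mem_layer_of_secondRes {d : ℕ} {z : W (RatFunc k)} (hz : z ∈ layer (d + 1))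
    (h : ∀ P : Place k, secondRes P z = 0) : z ∈ layer d := by
  have hle : layer (k := k) (d + 1) ≤
      (psi d).range.comap (QuotientAddGroup.mk' (layer (k := k) d)) := by
    refine (AddSubgroup.closure_le _).2 ?_
    rintro _ ⟨a, ha, rfl⟩
    obtain ⟨l, u, v, hl, hu, rfl⟩ := exists_list_of_mem ha
    show QuotientAddGroup.mk _ ∈ (psi d).range
    rw [(wc).mul_sq]
    exact mk_prod_mem_range l.length l rfl hl u hu
  obtain ⟨x, hx⟩ := hle hz
  have hcomp : ∀ (Q : {P : Place k // P.1.natDegree = d})
      (y : ⨁ P : {P : Place k // P.1.natDegree = d}, W (Res P.1)),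
      QuotientAddGroup.lift (layer (k := k) d) (secondRes Q.1)
        (fun w hw => secondRes_eq_zero_of_mem Q.2.ge hw) (psi d y) = y Q := fun Q y => by
    induction y using DirectSum.induction_on with
    | zero => simp
    | of P w =>
      refine DFunLike.congr_fun (WittRat.hom_ext
        (f := ((QuotientAddGroup.lift (layer (k := k) d) (secondRes Q.1)
          (fun w hw => secondRes_eq_zero_of_mem Q.2.ge hw)).comp (psi d)).comp
            (DirectSum.of (fun P : {P : Place k // P.1.natDegree = d} => W (Res P.1)) P))
        (g := (DFinsupp.evalAddMonoidHom Q).comp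
          (DirectSum.of (fun P : {P : Place k // P.1.natDegree = d} => W (Res P.1)) P))
        fun x => ?_) w
      rw [AddMonoidHom.comp_apply, AddMonoidHom.comp_apply, psi_of]
      show secondRes Q.1 (wc (P.1.unit * repUnit x)) =
        DirectSum.of (fun P : {P : Place k // P.1.natDegree = d} => W (Res P.1)) P
          (wittClass (Res P.1) x) Q
      have hv : (placeData Q.1).v (repUnit x) = 0 :=
        v_eq_zero_of_mem Q.2.ge (repUnit_mem P.2 x)
      rcases eq_or_ne P Q with rfl | hne
      · rw [secondRes_of_odd (by rw [(placeData P.1).v_mul, placeData_self.1, hv]; exact odd_one),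
          DirectSum.of_eq_same, map_mul, placeData_self.2, (placeData_repUnit x).2, one_mul]
      · rw [secondRes_of_even (by
            rw [(placeData Q.1).v_mul, placeData_unit_ne fun e => hne (Subtype.ext e.symm), hv]
            exact Even.zero), DirectSum.of_eq_of_ne _ _ _ hne.symm]
    | add a b ha hb => rw [map_add, map_add, ha, hb, DirectSum.add_apply]
  refine (QuotientAddGroup.eq_zero_iff z).1 (hx.symm.trans ?_)
  rw [show x = 0 from DirectSum.ext fun Q => by
    rw [← hcomp Q x, hx, DirectSum.zero_apply]
    exact h Q.1, map_zero]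

/-! ### All residues together -/

/-- The classes of constants. -/
def constW : W k →+ W (RatFunc k) :=
  WittRat.lift
    { toFun := fun a => wc (cu a)
      mul_sq := fun a b => by rw [map_mul, map_pow, (wc).mul_sq]
      add_neg := fun a => by
        rw [show cu (-a) = -cu a from Units.ext (by simp [coe_cu]), (wc).add_neg]
      binary := fun a b c h => by
        rw [map_mul, map_mul]
        exact (wc).binary _ _ _ (by rw [coe_cu, coe_cu, coe_cu, ← map_add, h]) }

theorem constW_wittClass (a : kˣ) : constW (wittClass k a) = wc (cu a) :=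
  WittRat.lift_wittClass _ a

/-- **The first residue at infinity.** -/
def firstRes : W (RatFunc k) →+ W k := WittRat.lift ((infData k).residue 0)

theorem firstRes_constW (z : W k) : firstRes (constW z) = z :=
  DFunLike.congr_fun (WittRat.hom_ext (f := firstRes.comp constW) (g := AddMonoidHom.id (W k))
    fun a => by
      rw [AddMonoidHom.comp_apply, constW_wittClass, firstRes, WittRat.lift_wittClass,
        PlaceData.residue_of_even _ (by rw [(infData_cu a).1]; exact Even.zero.add Even.zero),
        (infData_cu a).2]
      rfl) z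

theorem secondRes_constW (P : Place k) (z : W k) : secondRes P (constW z) = 0 :=
  DFunLike.congr_fun (WittRat.hom_ext (f := (secondRes P).comp constW) (g := 0) fun a => by
    rw [AddMonoidHom.comp_apply, constW_wittClass,
      secondRes_of_even (by rw [(placeData_cu a).1]; exact Even.zero)]
    rfl) z

theorem layer_one_le : layer (k := k) 1 ≤ (constW (k := k)).range := by
  refine (AddSubgroup.closure_le _).2 ?_
  rintro _ ⟨a, ha, rfl⟩
  have hs : smooth (k := k) 1 ≤ (cu (k := k)).range :=
    (Subgroup.closure_le _).2 (by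
      rintro x (⟨c, rfl⟩ | ⟨P, hP, rfl⟩)
      · exact ⟨c, rfl⟩
      · exact absurd P.natDegree_pos (by
          have : P.1.natDegree < 1 := hP
          omega))
  obtain ⟨c, rfl⟩ := hs ha
  exact ⟨wittClass k c, constW_wittClass c⟩

/-- **The kernel of the second residues is `W k`.** -/
theorem exists_constW {z : W (RatFunc k)} (h : ∀ P : Place k, secondRes P z = 0) :
    ∃ y, constW y = z := by
  obtain ⟨d, hd⟩ := exists_mem_layer z
  induction d with
  | zero => exact layer_one_le (layer_mono (Nat.zero_le 1) hd)
  | succ d ih =>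
    rcases Nat.eq_zero_or_pos d with rfl | _
    · exact layer_one_le hd
    · exact ih (mem_layer_of_secondRes hd h)

/-- The groups of the second residues. -/
abbrev WittTarget (k : Type u) [Field k] : Type u := ⨁ P : Place k, W (Res P)

/-- All second residues of a unit. -/
def resSum (a : (RatFunc k)ˣ) : WittTarget k :=
  DirectSum.mk _ (finite_v_support a).toFinset fun P => secondRes P.1 (wc a)

theorem resSum_apply (a : (RatFunc k)ˣ) (P : Place k) : resSum a P = secondRes P (wc a) := by
  by_cases hP : P ∈ (finite_v_support a).toFinset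
  · exact DirectSum.mk_apply_of_mem hP
  · rw [resSum, DirectSum.mk_apply_of_notMem hP, secondRes_of_even]
    rw [(not_not.1 fun h => hP ((finite_v_support a).mem_toFinset.2 h) :
      (placeData P).v a = 0)]
    exact Even.zero

/-- The residues as one map. -/
def allResidues : W (RatFunc k) →+ W k × WittTarget k :=
  WittRat.lift
    { toFun := fun a => (firstRes (wc a), resSum a)
      mul_sq := fun a b => Prod.ext (congrArg firstRes ((wc).mul_sq a b))
        (DirectSum.ext fun P => by
          simp only [resSum_apply]
          rw [(wc).mul_sq])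
      add_neg := fun a => Prod.ext
        ((map_add firstRes _ _).symm.trans
          ((congrArg firstRes ((wc).add_neg a)).trans (map_zero _)))
        (DirectSum.ext fun P => by
          simp only [Prod.snd_add, DirectSum.add_apply, resSum_apply, ← map_add, (wc).add_neg]
          exact map_zero _)
      binary := fun a b c h => Prod.ext
        ((map_add firstRes _ _).symm.trans ((congrArg firstRes ((wc).binary a b c h)).trans
          (map_add firstRes _ _)))
        (DirectSum.ext fun P => by
          simp only [Prod.snd_add, DirectSum.add_apply, resSum_apply, ← map_add,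
            (wc).binary a b c h]) }

theorem allResidues_fst (z : W (RatFunc k)) : (allResidues z).1 = firstRes z :=
  DFunLike.congr_fun (WittRat.hom_ext (f := (AddMonoidHom.fst _ _).comp (allResidues (k := k)))
    (g := firstRes) fun a => by
      rw [AddMonoidHom.comp_apply, allResidues, WittRat.lift_wittClass]
      rfl) z

theorem allResidues_snd (P : Place k) (z : W (RatFunc k)) :
    (allResidues z).2 P = secondRes P z :=
  DFunLike.congr_fun (WittRat.hom_ext (f := (DFinsupp.evalAddMonoidHom P).comp
    ((AddMonoidHom.snd _ _).comp (allResidues (k := k)))) (g := secondRes P) fun a => by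
      show (allResidues (wc a)).2 P = _
      rw [allResidues, WittRat.lift_wittClass]
      exact resSum_apply a P) z

theorem allResidues_injective : Function.Injective (allResidues (k := k)) := by
  refine (injective_iff_map_eq_zero _).2 fun z hz => ?_
  obtain ⟨y, rfl⟩ := exists_constW (z := z) fun P => by
    rw [← allResidues_snd, hz]
    rfl
  have := allResidues_fst (constW y)
  rw [hz, firstRes_constW] at this
  rw [← this]
  exact map_zero _

theorem allResidues_surjective : Function.Surjective (allResidues (k := k)) := by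
  set R := (allResidues (k := k)).range
  have hfst : ∀ y, ((y, 0) : W k × WittTarget k) ∈ R := fun y => ⟨constW y, Prod.ext
    ((allResidues_fst _).trans (firstRes_constW y))
    (DirectSum.ext fun P => (allResidues_snd P _).trans (secondRes_constW P y))⟩
  have hof : ∀ (d : ℕ) (P : Place k), P.1.natDegree = d → ∀ x : W (Res P),
      ((0, DirectSum.of (fun Q : Place k => W (Res Q)) P x) : W k × WittTarget k) ∈ R := by
    intro d
    induction d using Nat.strong_induction_on with
    | _ d ih =>
      intro P hP x
      have hx : x ∈ AddSubgroup.closure (Set.range (wittClass (Res P))) := by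
        rw [closure_range_wittClass]
        trivial
      refine ((AddSubgroup.closure_le (R.comap ((AddMonoidHom.inr (W k) (WittTarget k)).comp
        (DirectSum.of (fun Q : Place k => W (Res Q)) P)))).2 ?_) hx
      rintro _ ⟨x, rfl⟩
      show ((0, DirectSum.of (fun Q : Place k => W (Res Q)) P (wittClass (Res P) x)) :
        W k × WittTarget k) ∈ R
      set a := P.unit * repUnit x
      set e := (allResidues (wc a)).2 -
        DirectSum.of (fun Q : Place k => W (Res Q)) P (wittClass (Res P) x)
      have he : ((0, e) : W k × WittTarget k) ∈ R := by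
        rw [← DirectSum.sum_support_of e,
          show ∀ (s : Finset (Place k)) (g : Place k → WittTarget k),
            ((0, ∑ Q ∈ s, g Q) : W k × WittTarget k) = ∑ Q ∈ s, ((0 : W k), g Q) from
            fun s g => (map_sum (AddMonoidHom.inr (W k) (WittTarget k)) g s :)]
        refine sum_mem fun Q hQ => ih Q.1.natDegree ?_ Q rfl _
        by_contra hle
        refine DFinsupp.mem_support_iff.1 hQ ?_
        show (allResidues (wc a)).2 Q -
          DirectSum.of (fun R : Place k => W (Res R)) P (wittClass (Res P) x) Q = 0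
        have hv : (placeData Q).v (repUnit x) = 0 :=
          v_eq_zero_of_mem (not_lt.1 hle) (repUnit_mem hP x)
        rw [allResidues_snd, sub_eq_zero]
        rcases eq_or_ne Q P with rfl | hne
        · rw [secondRes_of_odd (by rw [(placeData Q).v_mul, placeData_self.1, hv]; exact odd_one),
            DirectSum.of_eq_same, map_mul, placeData_self.2, (placeData_repUnit x).2, one_mul]
        · rw [secondRes_of_even (by
            rw [(placeData Q).v_mul, placeData_unit_ne hne, hv]; exact Even.zero),
            DirectSum.of_eq_of_ne _ _ _ hne]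
      have h1 := sub_mem (sub_mem (show allResidues (wc a) ∈ R from ⟨_, rfl⟩)
        (hfst (allResidues (wc a)).1)) he
      convert h1 using 1
      exact Prod.ext (by simp) (by simp [e])
  intro z
  show z ∈ R
  rw [show z = (z.1, 0) + ((0 : W k), z.2) from Prod.ext (by simp) (by simp)]
  refine add_mem (hfst _) ?_
  rw [← DirectSum.sum_support_of z.2,
    show ∀ (s : Finset (Place k)) (g : Place k → WittTarget k),
      ((0, ∑ Q ∈ s, g Q) : W k × WittTarget k) = ∑ Q ∈ s, ((0 : W k), g Q) from
      fun s g => (map_sum (AddMonoidHom.inr (W k) (WittTarget k)) g s :)]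
  exact sum_mem fun Q _ => hof _ Q rfl _

/-- **Milnor's theorem on the Witt group of `k(t)`.** -/
def wittRatFuncEquiv (k : Type u) [Field k] : W (RatFunc k) ≃+ W k × WittTarget k :=
  AddEquiv.ofBijective allResidues ⟨allResidues_injective, allResidues_surjective⟩

/-- Forms over `k(t)` are classified by their residues. -/
theorem equivalent_iff_residues (h2 : (2 : k) ≠ 0) {n : ℕ} (w v : Fin n → (RatFunc k)ˣ) :
    QuadraticMap.Equivalent (Fermat.Agent.WittRat.diag w) (Fermat.Agent.WittRat.diag v) ↔
      firstRes (WittRat.cls w) = firstRes (WittRat.cls v) ∧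
        ∀ P : Place k, secondRes P (WittRat.cls w) = secondRes P (WittRat.cls v) := by
  have hF : (2 : RatFunc k) ≠ 0 := by
    rw [← map_ofNat (RatFunc.C : k →+* RatFunc k) 2]
    exact (_root_.map_ne_zero _).2 h2
  rw [WittRat.equivalent_iff_cls hF, ← (allResidues_injective (k := k)).eq_iff]
  simp only [Prod.ext_iff, allResidues_fst, DirectSum.ext_iff, allResidues_snd]

end Fermat.Agent.FunctionFieldMilnor
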